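import Mathlib

set_option autoImplicit false

/-!
# Addition on Weierstrass curves through slope relations
-/

namespace Fermat.Agent.FrobE

open WeierstrassCurve WeierstrassCurve.Affine

variable {K : Type*} [Field K] {W : Affine K}

lemma some_congr {X Y X' Y' : K} {h : W.Nonsingular X Y} {h' : W.Nonsingular X' Y'} (hX : X = X')
    (hY : Y = Y') : Point.some X Y h = Point.some X' Y' h' := by
  subst hX hY; rfl

/-- `l` is a slope for the pair of points -/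
structure IsSlope (W : Affine K) (x₁ y₁ x₂ y₂ l : K) : Prop where
  r1 : l * (x₁ - x₂) = y₁ - y₂
  r2 : l * (y₁ + y₂ + W.a₁ * x₂ + W.a₃) =
    x₁ ^ 2 + x₁ * x₂ + x₂ ^ 2 + W.a₂ * (x₁ + x₂) + W.a₄ - W.a₁ * y₁

lemma sub_rel {x₁ y₁ x₂ y₂ : K} (h₁ : W.Equation x₁ y₁) (h₂ : W.Equation x₂ y₂) :
    (y₁ - y₂) * (y₁ + y₂ + W.a₁ * x₂ + W.a₃) =
      (x₁ - x₂) * (x₁ ^ 2 + x₁ * x₂ + x₂ ^ 2 + W.a₂ * (x₁ + x₂) + W.a₄ - W.a₁ * y₁) := by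
  rw [equation_iff] at h₁ h₂
  linear_combination h₁ - h₂

lemma den_ne_zero {x y : K} (hxy : y ≠ W.negY x y) : y + y + W.a₁ * x + W.a₃ ≠ 0 := by
  intro h
  apply hxy
  rw [negY]
  linear_combination h

variable [DecidableEq K]

lemma isSlope_slope {x₁ y₁ x₂ y₂ : K} (h₁ : W.Equation x₁ y₁) (h₂ : W.Equation x₂ y₂)
    (hxy : ¬(x₁ = x₂ ∧ y₁ = W.negY x₂ y₂)) : IsSlope W x₁ y₁ x₂ y₂ (W.slope x₁ x₂ y₁ y₂) := by
  by_cases hx : x₁ = x₂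
  · subst hx
    have hy : y₁ ≠ W.negY x₁ y₂ := fun h => hxy ⟨rfl, h⟩
    have hy12 : y₁ = y₂ := Y_eq_of_Y_ne h₁ h₂ rfl hy
    subst hy12
    have hd := den_ne_zero hy
    rw [slope_of_Y_ne rfl hy]
    have e : y₁ - W.negY x₁ y₁ = y₁ + y₁ + W.a₁ * x₁ + W.a₃ := by rw [negY]; ring
    rw [e]
    constructor
    · ring
    · rw [div_mul_cancel₀ _ hd]; ring
  · rw [slope_of_X_ne hx]
    have hx' := sub_ne_zero.mpr hx
    constructor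
    · rw [div_mul_cancel₀ _ hx']
    · apply mul_left_cancel₀ hx'
      rw [← sub_rel h₁ h₂, ← mul_assoc, mul_div_cancel₀ _ hx']

lemma IsSlope.eq {x₁ y₁ x₂ y₂ l : K} (h : IsSlope W x₁ y₁ x₂ y₂ l)
    (hxy : ¬(x₁ = x₂ ∧ y₁ = W.negY x₂ y₂)) : W.slope x₁ x₂ y₁ y₂ = l := by
  by_cases hx : x₁ = x₂
  · subst hx
    have hy : y₁ ≠ W.negY x₁ y₂ := fun h => hxy ⟨rfl, h⟩
    have hy12 : y₁ = y₂ := by linear_combination -h.r1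
    subst hy12
    have hd := den_ne_zero hy
    rw [slope_of_Y_ne rfl hy]
    have e : y₁ - W.negY x₁ y₁ = y₁ + y₁ + W.a₁ * x₁ + W.a₃ := by rw [negY]; ring
    rw [e, div_eq_iff hd, h.r2]
    ring
  · rw [slope_of_X_ne hx, div_eq_iff (sub_ne_zero.mpr hx), h.r1]

lemma IsSlope.add {x₁ y₁ x₂ y₂ x₃ y₃ l : K} (h : IsSlope W x₁ y₁ x₂ y₂ l)
    (h₁ : W.Nonsingular x₁ y₁) (h₂ : W.Nonsingular x₂ y₂) (h₃ : W.Nonsingular x₃ y₃)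
    (hxy : ¬(x₁ = x₂ ∧ y₁ = W.negY x₂ y₂)) (hx : x₃ = l ^ 2 + W.a₁ * l - W.a₂ - x₁ - x₂)
    (hy : y₃ = -(l * (x₃ - x₁) + y₁) - W.a₁ * x₃ - W.a₃) :
    Point.some x₁ y₁ h₁ + Point.some x₂ y₂ h₂ = Point.some x₃ y₃ h₃ := by
  rw [Point.add_some hxy]
  have eX : W.addX x₁ x₂ (W.slope x₁ x₂ y₁ y₂) = x₃ := by
    rw [h.eq hxy, addX, hx]
  apply some_congr eX
  rw [addY, negAddY, eX, h.eq hxy, hy, negY]

/-- coordinates of a sum -/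
lemma exists_add {x₁ y₁ x₂ y₂ : K} (h₁ : W.Nonsingular x₁ y₁) (h₂ : W.Nonsingular x₂ y₂)
    (hxy : ¬(x₁ = x₂ ∧ y₁ = W.negY x₂ y₂)) : ∃ (l x₃ y₃ : K) (h₃ : W.Nonsingular x₃ y₃),
      IsSlope W x₁ y₁ x₂ y₂ l ∧ x₃ = l ^ 2 + W.a₁ * l - W.a₂ - x₁ - x₂ ∧
      y₃ = -(l * (x₃ - x₁) + y₁) - W.a₁ * x₃ - W.a₃ ∧
      Point.some x₁ y₁ h₁ + Point.some x₂ y₂ h₂ = Point.some x₃ y₃ h₃ := by
  refine ⟨_, _, _, nonsingular_add h₁ h₂ hxy, isSlope_slope h₁.1 h₂.1 hxy, rfl, ?_,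
    Point.add_some hxy⟩
  rw [addY, negAddY, negY]

/-- a criterion for a map to be additive -/
lemma map_add_of {G : Type*} [AddCommGroup G] (f : W.Point → G) (h0 : f 0 = 0)
    (hneg : ∀ P, f (-P) = -f P)
    (hadd : ∀ (x₁ y₁ x₂ y₂ : K) (h₁ : W.Nonsingular x₁ y₁) (h₂ : W.Nonsingular x₂ y₂),
      ¬(x₁ = x₂ ∧ y₁ = W.negY x₂ y₂) →
      f (Point.some x₁ y₁ h₁ + Point.some x₂ y₂ h₂) = f (Point.some x₁ y₁ h₁) +
        f (Point.some x₂ y₂ h₂)) (P Q : W.Point) : f (P + Q) = f P + f Q := by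
  match P, Q with
  | 0, Q => rw [h0, zero_add, zero_add]
  | P, 0 => rw [h0, add_zero, add_zero]
  | .some x₁ y₁ h₁, .some x₂ y₂ h₂ =>
    by_cases hxy : x₁ = x₂ ∧ y₁ = W.negY x₂ y₂
    · obtain ⟨hx, hy⟩ := hxy
      have e : Point.some x₁ y₁ h₁ = -Point.some x₂ y₂ h₂ := by
        rw [Point.neg_some]; exact some_congr hx hy
      rw [e, neg_add_cancel, h0, hneg, neg_add_cancel]
    · exact hadd _ _ _ _ _ _ hxy

end Fermat.Agent.FrobE
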