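import Mathlib
import Fermat.Agent.FrobE.Add

set_option autoImplicit false

/-!
# Change of variables is an isomorphism on points
-/

namespace Fermat.Agent.FrobE

open WeierstrassCurve WeierstrassCurve.Affine

variable {K : Type*} [Field K] (W : WeierstrassCurve K) (C : VariableChange K)

/-- new `x` -/
def vcX (x : K) : K := (C.u : K) ^ 2 * x + C.r

/-- new `y` -/
def vcY (x y : K) : K := (C.u : K) ^ 3 * y + (C.u : K) ^ 2 * C.s * x + C.t

lemma vc_a₁ : (C.u : K) * (C • W).a₁ = W.a₁ + 2 * C.s := by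
  rw [variableChange_a₁, ← mul_assoc, Units.mul_inv]; ring

lemma u_inv_pow (n : ℕ) : (C.u : K) ^ n * ((C.u⁻¹ : Kˣ) : K) ^ n = 1 := by
  rw [← mul_pow, Units.mul_inv, one_pow]

lemma vc_a₂ : (C.u : K) ^ 2 * (C • W).a₂ = W.a₂ - C.s * W.a₁ + 3 * C.r - C.s ^ 2 := by
  rw [variableChange_a₂, ← mul_assoc, u_inv_pow]; ring

lemma vc_a₃ : (C.u : K) ^ 3 * (C • W).a₃ = W.a₃ + C.r * W.a₁ + 2 * C.t := by
  rw [variableChange_a₃, ← mul_assoc, u_inv_pow]; ring

lemma vc_a₄ : (C.u : K) ^ 4 * (C • W).a₄ = W.a₄ - C.s * W.a₃ + 2 * C.r * W.a₂ -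
    (C.t + C.r * C.s) * W.a₁ + 3 * C.r ^ 2 - 2 * C.s * C.t := by
  rw [variableChange_a₄, ← mul_assoc, u_inv_pow]; ring

lemma vc_a₆ : (C.u : K) ^ 6 * (C • W).a₆ = W.a₆ + C.r * W.a₄ + C.r ^ 2 * W.a₂ + C.r ^ 3 -
    C.t * W.a₃ - C.t ^ 2 - C.r * C.t * W.a₁ := by
  rw [variableChange_a₆, ← mul_assoc, u_inv_pow]; ring

lemma vc_equation (x y : K) : (C • W).toAffine.Equation x y ↔
    W.toAffine.Equation (vcX C x) (vcY C x y) := by
  rw [equation_iff', equation_iff']
  have h1 := vc_a₁ W C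
  have h2 := vc_a₂ W C
  have h3 := vc_a₃ W C
  have h4 := vc_a₄ W C
  have h6 := vc_a₆ W C
  have hu : (C.u : K) ≠ 0 := C.u.ne_zero
  generalize (C • W).a₁ = a1 at *
  generalize (C • W).a₂ = a2 at *
  generalize (C • W).a₃ = a3 at *
  generalize (C • W).a₄ = a4 at *
  generalize (C • W).a₆ = a6 at *
  have key : vcY C x y ^ 2 + W.a₁ * vcX C x * vcY C x y + W.a₃ * vcY C x y -
      (vcX C x ^ 3 + W.a₂ * vcX C x ^ 2 + W.a₄ * vcX C x + W.a₆) =
      (C.u : K) ^ 6 * (y ^ 2 + a1 * x * y + a3 * y - (x ^ 3 + a2 * x ^ 2 + a4 * x + a6)) := by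
    simp only [vcX, vcY]
    linear_combination (-(C.u : K) ^ 5 * x * y) * h1 + (C.u : K) ^ 4 * x ^ 2 * h2 -
      (C.u : K) ^ 3 * y * h3 + (C.u : K) ^ 2 * x * h4 + h6
  rw [key, mul_eq_zero]
  exact ⟨fun h => Or.inr h, fun h => h.resolve_left (pow_ne_zero _ hu)⟩

lemma vc_dy (x y : K) : 2 * vcY C x y + W.a₁ * vcX C x + W.a₃ =
    (C.u : K) ^ 3 * (2 * y + (C • W).a₁ * x + (C • W).a₃) := by
  have h1 := vc_a₁ W C
  have h3 := vc_a₃ W C
  simp only [vcX, vcY]
  linear_combination -(C.u : K) ^ 2 * x * h1 - h3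

lemma vc_dx (x y : K) : W.a₁ * vcY C x y - (3 * vcX C x ^ 2 + 2 * W.a₂ * vcX C x + W.a₄) =
    (C.u : K) ^ 4 * ((C • W).a₁ * y - (3 * x ^ 2 + 2 * (C • W).a₂ * x + (C • W).a₄)) -
      C.s * (2 * vcY C x y + W.a₁ * vcX C x + W.a₃) := by
  have h1 := vc_a₁ W C
  have h2 := vc_a₂ W C
  have h4 := vc_a₄ W C
  simp only [vcX, vcY]
  linear_combination -(C.u : K) ^ 3 * y * h1 + 2 * (C.u : K) ^ 2 * x * h2 + h4

lemma vc_nonsingular (x y : K) : (C • W).toAffine.Nonsingular x y ↔
    W.toAffine.Nonsingular (vcX C x) (vcY C x y) := by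
  have hu : (C.u : K) ≠ 0 := C.u.ne_zero
  rw [nonsingular_iff', nonsingular_iff', vc_equation, vc_dx W C]
  have hdy := vc_dy W C x y
  have e : (2 * vcY C x y + W.a₁ * vcX C x + W.a₃ = 0) ↔
    (2 * y + (C • W).a₁ * x + (C • W).a₃ = 0) := by
    rw [hdy, mul_eq_zero]
    exact ⟨fun h => h.resolve_left (pow_ne_zero _ hu), Or.inr⟩
  apply and_congr_right
  intro _
  by_cases h : 2 * vcY C x y + W.a₁ * vcX C x + W.a₃ = 0
  · have h' := e.mp h
    constructor
    · rintro (h2 | h2)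
      · left
        rw [h, mul_zero, sub_zero]
        exact mul_ne_zero (pow_ne_zero _ hu) h2
      · exact absurd h' h2
    · rintro (h2 | h2)
      · left
        rw [h, mul_zero, sub_zero] at h2
        exact right_ne_zero_of_mul h2
      · exact absurd h h2
  · exact ⟨fun _ => Or.inr h, fun _ => Or.inr (fun h' => h (e.mpr h'))⟩

/-- the map on points -/
def vcFun : (C • W).toAffine.Point → W.toAffine.Point
  | .zero => 0
  | .some x y h => .some (vcX C x) (vcY C x y) ((vc_nonsingular W C x y).mp h)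

lemma vc_negY (x y : K) : W.toAffine.negY (vcX C x) (vcY C x y) =
    vcY C x ((C • W).toAffine.negY x y) := by
  have h1 := vc_a₁ W C
  have h3 := vc_a₃ W C
  simp only [negY, vcX, vcY]
  linear_combination (C.u : K) ^ 2 * x * h1 + h3

lemma vcX_inj {x x' : K} (h : vcX C x = vcX C x') : x = x' := by
  have hu : (C.u : K) ≠ 0 := C.u.ne_zero
  simp only [vcX] at h
  exact mul_left_cancel₀ (pow_ne_zero 2 hu) (add_right_cancel h)

lemma vcY_inj {x y y' : K} (h : vcY C x y = vcY C x y') : y = y' := by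
  have hu : (C.u : K) ≠ 0 := C.u.ne_zero
  simp only [vcY] at h
  exact mul_left_cancel₀ (pow_ne_zero 3 hu) (add_right_cancel (add_right_cancel h))

lemma vcFun_injective : Function.Injective (vcFun W C) := by
  rintro (_ | ⟨x, y, h⟩) (_ | ⟨x', y', h'⟩) e
  · rfl
  · exact absurd e.symm (Point.some_ne_zero _)
  · exact absurd e (Point.some_ne_zero _)
  · simp only [vcFun, Point.some.injEq] at e
    obtain ⟨e1, e2⟩ := e
    have := vcX_inj C e1
    subst this
    have := vcY_inj C e2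
    subst this
    rfl

lemma vcFun_surjective : Function.Surjective (vcFun W C) := by
  rintro (_ | ⟨X, Y, h⟩)
  · exact ⟨0, rfl⟩
  · have hu : (C.u : K) ≠ 0 := C.u.ne_zero
    have hX : vcX C ((X - C.r) / (C.u : K) ^ 2) = X := by
      simp only [vcX]; field_simp; ring
    have hY : vcY C ((X - C.r) / (C.u : K) ^ 2) ((Y - C.t - C.s * (X - C.r)) / (C.u : K) ^ 3) = Y := by
      simp only [vcY]; field_simp; ring
    have h' : (C • W).toAffine.Nonsingular ((X - C.r) / (C.u : K) ^ 2)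
      ((Y - C.t - C.s * (X - C.r)) / (C.u : K) ^ 3) := by
      rw [vc_nonsingular, hX, hY]; exact h
    refine ⟨.some _ _ h', ?_⟩
    exact some_congr hX hY

variable [DecidableEq K]

lemma vcFun_add (P Q : (C • W).toAffine.Point) : vcFun W C (P + Q) = vcFun W C P + vcFun W C Q := by
  apply map_add_of (W := (C • W).toAffine) (vcFun W C) rfl
  · intro P
    match P with
    | 0 => rfl
    | .some x y h =>
      rw [Point.neg_some]
      simp only [vcFun]
      rw [Point.neg_some]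
      exact some_congr rfl (vc_negY W C x y).symm
  · intro x₁ y₁ x₂ y₂ h₁ h₂ hxy
    obtain ⟨l, x₃, y₃, h₃, hs, ex, ey, e⟩ := exists_add h₁ h₂ hxy
    rw [e]
    symm
    simp only [vcFun]
    have e1 := vc_a₁ W C
    have e2 := vc_a₂ W C
    have e3 := vc_a₃ W C
    have e4 := vc_a₄ W C
    have hu : (C.u : K) ≠ 0 := C.u.ne_zero
    apply IsSlope.add (l := (C.u : K) * l + C.s)
    · constructor
      · simp only [vcX, vcY]
        linear_combination (C.u : K) ^ 3 * hs.r1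
      · simp only [vcX, vcY]
        linear_combination (C.u : K) ^ 4 * hs.r2 + (C.u : K) ^ 3 * C.s * hs.r1 +
          (-(C.u : K) ^ 3 * l * x₂ - (C.u : K) ^ 3 * y₁) * e1 - (C.u : K) * l * e3 +
          (C.u : K) ^ 2 * (x₁ + x₂) * e2 + e4
    · rintro ⟨a, b⟩
      have := vcX_inj C a
      subst this
      rw [vc_negY] at b
      exact hxy ⟨rfl, vcY_inj C b⟩
    · simp only [vcX]
      rw [ex]
      linear_combination (C.u : K) * l * e1 - e2
    · simp only [vcX, vcY]
      rw [ey]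
      linear_combination (-((C.u : K) ^ 2 * x₃)) * e1 - e3

/-- change of variables as an isomorphism of groups of points -/
noncomputable def vcEquiv : (C • W).toAffine.Point ≃+ W.toAffine.Point :=
  AddEquiv.ofBijective (⟨⟨vcFun W C, rfl⟩, vcFun_add W C⟩ :
    (C • W).toAffine.Point →+ W.toAffine.Point) ⟨vcFun_injective W C, vcFun_surjective W C⟩

lemma vcEquiv_some {x y : K} (h : (C • W).toAffine.Nonsingular x y) :
    vcEquiv W C (.some x y h) = .some (vcX C x) (vcY C x y) ((vc_nonsingular W C x y).mp h) := rfl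

end Fermat.Agent.FrobE
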