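import Mathlib
import Fermat.Agent.FrobE.VC
import Fermat.Agent.FrobChar.Main

set_option autoImplicit false

/-!
# The characteristic equation of Frobenius, general Weierstrass equation, odd characteristic
-/

namespace Fermat.Agent.FrobE

open WeierstrassCurve WeierstrassCurve.Affine
open FrobChar (frobPt frobPt_some)

section cast

variable {K : Type*} [Field K] [DecidableEq K]

/-- transport of points along an equality of curves -/
def castHom {W W' : Affine K} (h : W = W') : W.Point ≃+ W'.Point := by
  subst h; exact AddEquiv.refl _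

lemma castHom_some {W W' : Affine K} (h : W = W') {x y : K} (hxy : W.Nonsingular x y) :
    castHom h (.some x y hxy) = .some x y (by rw [← h]; exact hxy) := by
  subst h; rfl

end cast

variable {F : Type*} [Field F] {M : Type*} [Field M] [Algebra F M] [DecidableEq M]

omit [DecidableEq M] in
lemma bc_vc (W : Affine F) (C : VariableChange F) :
    ((C • W : WeierstrassCurve F)⁄M) = (C.map (algebraMap F M)) • (W⁄M) :=
  (W.map_variableChange C (algebraMap F M)).symm

/-- change of variables over an extension -/
noncomputable def psi (W : Affine F) (C : VariableChange F) : 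
    ((C • W : WeierstrassCurve F)⁄M).toAffine.Point ≃+ (W⁄M).toAffine.Point :=
  (castHom (bc_vc W C)).trans (vcEquiv (W⁄M) (C.map (algebraMap F M)))

lemma psi_some (W : Affine F) (C : VariableChange F) {x y : M} 
    (h : ((C • W : WeierstrassCurve F)⁄M).toAffine.Nonsingular x y) :
    ∃ h', psi W C (.some x y h) = .some (vcX (C.map (algebraMap F M)) x) 
      (vcY (C.map (algebraMap F M)) x y) h' := by
  refine ⟨(vc_nonsingular (W⁄M) (C.map (algebraMap F M)) x y).mp (by rw [← bc_vc]; exact h), ?_⟩
  change vcEquiv (W⁄M) (C.map (algebraMap F M)) (castHom (bc_vc W C) (.some x y h)) = _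
  rw [castHom_some, vcEquiv_some]

variable [Fintype F]

lemma pow_card_algebraMap (a : F) : (algebraMap F M a) ^ Fintype.card F = algebraMap F M a := by
  rw [← map_pow, FiniteField.pow_card]

lemma add_pow_card (x y : M) : (x + y) ^ Fintype.card F = x ^ Fintype.card F + y ^ Fintype.card F := by
  have := map_add (FiniteField.frobeniusAlgHom F M) x y
  simpa only [FiniteField.coe_frobeniusAlgHom] using this

lemma frobPt_psi (W : Affine F) (C : VariableChange F) 
    (P : ((C • W : WeierstrassCurve F)⁄M).toAffine.Point) :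
    frobPt W (psi (M := M) W C P) = psi W C (frobPt (C • W : WeierstrassCurve F) P) := by
  match P with
  | 0 => rw [map_zero, map_zero, map_zero, map_zero]
  | .some x y h =>
    obtain ⟨h', e⟩ := frobPt_some (L := M) (C • W : WeierstrassCurve F) h
    obtain ⟨h2, e2⟩ := psi_some W C h
    obtain ⟨h3, e3⟩ := psi_some W C h'
    obtain ⟨h4, e4⟩ := frobPt_some (L := M) W h2
    rw [e, e2, e3, e4]
    apply some_congr
    · simp only [vcX]
      rw [add_pow_card, mul_pow, ← pow_mul, mul_comm 2, pow_mul]
      simp only [VariableChange.map, Units.coe_map, MonoidHom.coe_coe, RingHom.toMonoidHom_eq_coe]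
      rw [pow_card_algebraMap, pow_card_algebraMap]
    · simp only [vcY]
      rw [add_pow_card, add_pow_card, mul_pow, mul_pow, mul_pow, ← pow_mul, ← pow_mul, mul_comm 3,
        mul_comm 2, pow_mul, pow_mul]
      simp only [VariableChange.map, Units.coe_map, MonoidHom.coe_coe, RingHom.toMonoidHom_eq_coe]
      rw [pow_card_algebraMap, pow_card_algebraMap, pow_card_algebraMap]

omit [Fintype F] in
lemma card_vc [Finite F] (W : Affine F) (C : VariableChange F) :
    Nat.card (C • W : WeierstrassCurve F).toAffine.Point = Nat.card W.Point := by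
  classical
  exact Nat.card_congr (vcEquiv W C).toEquiv

/-- transfer of the characteristic equation under a change of variables -/
theorem char_eq_of_vc (W : Affine F) (C : VariableChange F) (P : (W⁄M).Point)
    (h : ∀ Q : ((C • W : WeierstrassCurve F)⁄M).toAffine.Point, psi W C Q = P →
      frobPt (C • W : WeierstrassCurve F) (frobPt (C • W : WeierstrassCurve F) Q) - 
        ((Fintype.card F : ℤ) + 1 - (Nat.card (C • W : WeierstrassCurve F).toAffine.Point : ℤ)) • 
          frobPt (C • W : WeierstrassCurve F) Q + (Fintype.card F : ℤ) • Q = 0) :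
    frobPt W (frobPt W P) - ((Fintype.card F : ℤ) + 1 - (Nat.card W.Point : ℤ)) • frobPt W P + 
        (Fintype.card F : ℤ) • P = 0 := by
  obtain ⟨Q, rfl⟩ := (psi (M := M) W C).surjective P
  have e := congrArg (psi (M := M) W C) (h Q rfl)
  rw [map_add, map_sub, map_zsmul, map_zsmul, map_zero, ← frobPt_psi, ← frobPt_psi, card_vc] at e
  exact e

/-- Frobenius satisfies its characteristic equation on points of odd order, odd characteristic. -/
theorem char_eq_odd (W : Affine F) [WeierstrassCurve.IsElliptic W] (h2 : (2 : F) ≠ 0)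
    [Algebra.IsAlgebraic F M] {m : ℤ} (hm : Odd m) (P : (W⁄M).Point) (hP : m • P = 0) : 
    frobPt W (frobPt W P) - ((Fintype.card F : ℤ) + 1 - (Nat.card W.Point : ℤ)) • frobPt W P + 
        (Fintype.card F : ℤ) • P = 0 := by
  let C : VariableChange F := ⟨1, 0, -W.a₁ / 2, -W.a₃ / 2⟩
  apply char_eq_of_vc W C P
  intro Q hQ
  apply FrobChar.frobenius_char_eq_of_odd (C • W : WeierstrassCurve F) _ _ h2 hm Q
  · apply (psi (M := M) W C).injective
    rw [map_zsmul, map_zero, hQ, hP]
  · change ((1 : Fˣ)⁻¹ : Fˣ) * (W.a₁ + 2 * (-W.a₁ / 2)) = 0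
    rw [mul_div_cancel₀ _ h2]; ring
  · change (((1 : Fˣ)⁻¹ : Fˣ) : F) ^ 3 * (W.a₃ + 0 * W.a₁ + 2 * (-W.a₃ / 2)) = 0
    rw [mul_div_cancel₀ _ h2]; ring

end Fermat.Agent.FrobE
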