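import Mathlib
import Fermat.Agent.FrobE.CharOdd

set_option autoImplicit false

/-!
# The characteristic equation of Frobenius over the field with two elements
-/

namespace Fermat.Agent.FrobE

open WeierstrassCurve WeierstrassCurve.Affine
open FrobChar (frobPt frobPt_some)

section coords

variable {K : Type*} [Field K] [DecidableEq K] {W : Affine K}

lemma add_coords {x₁ y₁ x₂ y₂ l : K} (h₁ : W.Nonsingular x₁ y₁) (h₂ : W.Nonsingular x₂ y₂)
    (hs : IsSlope W x₁ y₁ x₂ y₂ l) (hxy : ¬(x₁ = x₂ ∧ y₁ = W.negY x₂ y₂)) :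
    ∃ h₃, Point.some x₁ y₁ h₁ + Point.some x₂ y₂ h₂ =
      Point.some (l ^ 2 + W.a₁ * l - W.a₂ - x₁ - x₂)
        (-(l * ((l ^ 2 + W.a₁ * l - W.a₂ - x₁ - x₂) - x₁) + y₁) -
          W.a₁ * (l ^ 2 + W.a₁ * l - W.a₂ - x₁ - x₂) - W.a₃) h₃ := by
  obtain ⟨l', x₃, y₃, h₃, hs', ex, ey, e⟩ := exists_add h₁ h₂ hxy
  have hl : l' = l := (hs'.eq hxy).symm.trans (hs.eq hxy)
  subst hl
  subst ex
  subst ey
  exact ⟨h₃, e⟩

lemma add_coords' {x₁ y₁ x₂ y₂ l x₃ y₃ : K} (h₁ : W.Nonsingular x₁ y₁) (h₂ : W.Nonsingular x₂ y₂)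
    (hs : IsSlope W x₁ y₁ x₂ y₂ l) (hxy : ¬(x₁ = x₂ ∧ y₁ = W.negY x₂ y₂))
    (ex : x₃ = l ^ 2 + W.a₁ * l - W.a₂ - x₁ - x₂)
    (ey : y₃ = -(l * (x₃ - x₁) + y₁) - W.a₁ * x₃ - W.a₃) :
    ∃ h₃, Point.some x₁ y₁ h₁ + Point.some x₂ y₂ h₂ = Point.some x₃ y₃ h₃ := by
  subst ex
  subst ey
  exact add_coords h₁ h₂ hs hxy

end coords

section card

/-- number of points -/
def cnt (a₁ a₂ a₃ a₄ a₆ : ZMod 2) : ℕ :=
  1 + (Finset.univ.filter (fun p : ZMod 2 × ZMod 2 => p.2 ^ 2 + a₁ * p.1 * p.2 + a₃ * p.2 =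
      p.1 ^ 3 + a₂ * p.1 ^ 2 + a₄ * p.1 + a₆)).card

lemma card_two (W : Affine (ZMod 2)) (hΔ : W.Δ ≠ 0) : Nat.card W.Point =
    cnt W.a₁ W.a₂ W.a₃ W.a₄ W.a₆ := by
  rw [cnt]
  classical
  set S := Finset.univ.filter (fun p : ZMod 2 × ZMod 2 => p.2 ^ 2 + W.a₁ * p.1 * p.2 + W.a₃ * p.2 =
      p.1 ^ 3 + W.a₂ * p.1 ^ 2 + W.a₄ * p.1 + W.a₆) with hS
  have hmem : ∀ x y, (x, y) ∈ S ↔ W.Equation x y := by
    intro x y
    rw [hS, Finset.mem_filter, equation_iff]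
    simp
  let f : W.Point → Option S := fun P => match P with
    | .zero => none
    | .some x y h => Option.some ⟨(x, y), (hmem x y).mpr h.1⟩
  have hf : Function.Bijective f := by
    constructor
    · rintro (_ | ⟨x, y, h⟩) (_ | ⟨x', y', h'⟩) e
      · rfl
      · exact absurd e (by simp [f])
      · exact absurd e (by simp [f])
      · simp only [f, Option.some.injEq, Subtype.mk.injEq, Prod.mk.injEq] at e
        obtain ⟨rfl, rfl⟩ := e
        rfl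
    · rintro (_ | ⟨⟨x, y⟩, h⟩)
      · exact ⟨0, rfl⟩
      · exact ⟨.some x y ((W.equation_iff_nonsingular_of_Δ_ne_zero hΔ).mp ((hmem x y).mp h)), rfl⟩
  rw [Nat.card_congr (Equiv.ofBijective f hf), Nat.card_eq_fintype_card, Fintype.card_option,
    Fintype.card_coe, add_comm]

end card

section supersingular

variable {K : Type*} [Field K] [DecidableEq K] {W : Affine K}

lemma ss_dbl (h2 : (2 : K) = 0) (e1 : W.a₁ = 0) (e2 : W.a₂ = 0) (e3 : W.a₃ = 1) {x y : K}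
    (h : W.Nonsingular x y) : ∃ h', Point.some x y h + Point.some x y h =
      Point.some (x ^ 4 + W.a₄ ^ 2) ((x ^ 2 + W.a₄) * (x ^ 4 + W.a₄ ^ 2 + x) + y + 1) h' := by
  have hxy : ¬(x = x ∧ y = W.negY x y) := by
    rintro ⟨-, hy⟩
    rw [negY, e1, e3] at hy
    have : (1 : K) = 0 := by linear_combination hy - y * h2
    exact one_ne_zero this
  have hs : IsSlope W x y x y (x ^ 2 + W.a₄) := by
    constructor
    · ring
    · rw [e1, e2, e3]
      linear_combination (x ^ 2 * y - x ^ 2 + W.a₄ * y) * h2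
  apply add_coords' h h hs hxy
  · rw [e1, e2]; linear_combination (-x ^ 2 * W.a₄ + x) * h2
  · rw [e1, e3]
    linear_combination ((x ^ 2 + W.a₄) * (x ^ 4 + W.a₄ ^ 2) + y + 1) * h2

/-- `a = 0` -/
lemma ss_zero (h2 : (2 : K) = 0) (e1 : W.a₁ = 0) (e2 : W.a₂ = 0) (e3 : W.a₃ = 1) (e4 : W.a₄ = 0)
    (e6 : W.a₆ ^ 2 = W.a₆) {x y : K}
    (h : W.Nonsingular x y) {x' y' : K} (h' : W.Nonsingular x' y') (hx : x' = x ^ 4)
    (hy : y' = y ^ 4) : Point.some x' y' h' + (Point.some x y h + Point.some x y h) = 0 := by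
  obtain ⟨h'', e⟩ := ss_dbl h2 e1 e2 e3 h
  rw [e]
  have hc := h.1
  rw [equation_iff, e1, e2, e3, e4] at hc
  apply Point.add_of_Y_eq
  · rw [hx, e4]; ring
  · rw [hy, negY, e1, e3, e4]
    set e := W.a₆
    linear_combination -((e + x^3 + y^2 - y + 1) * hc + e6 + 
      (e*x^3 - e*y + e + x^6 - x^3*y + x^3 + 1) * h2) + (2 + y + y^4 + x^3 + x^6) * h2

/-- `a = ± 2` -/
lemma ss_two (h2 : (2 : K) = 0) (e1 : W.a₁ = 0) (e2 : W.a₂ = 0) (e3 : W.a₃ = 1) (e4 : W.a₄ = 1)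
    (e6 : W.a₆ ^ 2 = W.a₆) {x y : K}
    (h : W.Nonsingular x y) {x' y' : K} (h' : W.Nonsingular x' y') (hx : x' = x ^ 4)
    (hy : y' = y ^ 4) {x'' y'' : K} (h'' : W.Nonsingular x'' y'') (hx' : x'' = x ^ 2)
    (hy' : y'' = y ^ 2) : 
    (W.a₆ = 1 → Point.some x' y' h' + (Point.some x y h + Point.some x y h) = 
      Point.some x'' y'' h'' + Point.some x'' y'' h'') ∧
    (W.a₆ = 0 → Point.some x' y' h' + (Point.some x y h + Point.some x y h) = 
      -(Point.some x'' y'' h'' + Point.some x'' y'' h'')) := by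
  obtain ⟨hd, ed⟩ := ss_dbl h2 e1 e2 e3 h
  obtain ⟨hd', ed'⟩ := ss_dbl h2 e1 e2 e3 h''
  rw [ed, ed']
  have hc := h.1
  rw [equation_iff, e1, e2, e3, e4] at hc
  have hxy : ¬(x' = x ^ 4 + W.a₄ ^ 2 ∧
      y' = W.negY (x ^ 4 + W.a₄ ^ 2) ((x ^ 2 + W.a₄) * (x ^ 4 + W.a₄ ^ 2 + x) + y + 1)) := by
    rintro ⟨h1, -⟩
    rw [hx, e4] at h1
    have : (1 : K) = 0 := by linear_combination -h1
    exact one_ne_zero this
  have hs : IsSlope W x' y' (x ^ 4 + W.a₄ ^ 2) ((x ^ 2 + W.a₄) * (x ^ 4 + W.a₄ ^ 2 + x) + y + 1)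
      (x ^ 4) := by
    constructor
    · rw [hx, hy, e4]
      set e := W.a₆
      linear_combination (-e - x^3 - x - y^2 + y - 1) * hc - e6 + 
        (-e*x^3 - e*x + e*y - e - x^4 + x^3*y + x*y + y + 1) * h2
    · rw [hx, hy, e1, e2, e3, e4]
      set e := W.a₆
      linear_combination (e*x^4 + x^7 + x^5 + x^4*y^2 - x^4*y + x^4) * hc + (x^4) * e6 + 
        (e*x^7 + e*x^5 - e*x^4*y + e*x^4 + x^10 - x^7*y + x^7 + x^6 - x^5*y + x^5 - 1) * h2
  obtain ⟨h3, es⟩ := add_coords' (x₃ := x ^ 8 + 1) (y₃ := x ^ 4 * (x ^ 8 + 1 + x ^ 4) + y ^ 4 + 1)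
    h' hd hs hxy (by
      rw [hx, e1, e2, e4]
      linear_combination (x ^ 4 + 1) * h2) (by
      rw [hx, hy, e1, e3]
      linear_combination (x ^ 12 + y ^ 4 + x ^ 4 + 1) * h2)
  rw [es]
  constructor
  · intro h6
    rw [h6] at hc
    apply some_congr
    · rw [hx', e4]; ring
    · rw [hx', hy', e4]
      linear_combination (1 + x^3 + x + y^2 - y) * hc  + 
        (x^3 + x - y + x^4 - x^3*y - x*y - 1 + 1) * h2
  · intro h6
    rw [h6] at hc
    rw [Point.neg_some]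
    apply some_congr
    · rw [hx', e4]; ring
    · rw [hx', hy', e4, negY, e1, e3]
      linear_combination (x^3 + x + y^2 - y) * hc + 
        (x^4 - x^3*y - x*y - 1 + 3 + x^2 + x^4 + x^6 + x^8 + x^12 + y^2) * h2

end supersingular

section ordinary

variable {K : Type*} [Field K] [DecidableEq K] {W : Affine K}

omit [DecidableEq K] in
lemma sq_ne_four {x : K} (h2 : (2 : K) = 0) (hx0 : x ≠ 0) (hx1 : x ≠ 1) : x ^ 2 ≠ x ^ 4 := by
  intro h
  have : x ^ 2 * (x - 1) ^ 2 = 0 := by linear_combination (-x ^ 3 + x ^ 2) * h2 - h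
  rcases mul_eq_zero.mp this with h | h
  · exact hx0 ((pow_eq_zero_iff two_ne_zero).mp h)
  · exact hx1 (sub_eq_zero.mp ((pow_eq_zero_iff two_ne_zero).mp h))

lemma ord_zero (h2 : (2 : K) = 0) (e1 : W.a₁ = 1) (e2 : W.a₂ = 0) (e3 : W.a₃ = 0) (e4 : W.a₄ = 0)
    (e6 : W.a₆ = 1) {x y : K} (h : W.Nonsingular x y) (hx0 : x ≠ 0) (hx1 : x ≠ 1)
    {x' y' : K} (h' : W.Nonsingular x' y') (hx : x' = x ^ 4) (hy : y' = y ^ 4) 
    {x'' y'' : K} (h'' : W.Nonsingular x'' y'') (hx' : x'' = x ^ 2) (hy' : y'' = y ^ 2) : 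
    Point.some x y h + Point.some x y h = -Point.some x'' y'' h'' - Point.some x' y' h' := by
  rw [sub_eq_add_neg, Point.neg_some, Point.neg_some]
  obtain ⟨u, rfl⟩ : ∃ u, y = u * x := ⟨y / x, by rw [div_mul_cancel₀ _ hx0]⟩
  have hR := h.1
  rw [equation_iff, e1, e2, e3, e4, e6] at hR
  have hs1 : IsSlope W x (u * x) x (u * x) (x + u) := by
    constructor
    · ring
    · rw [e1, e2, e3, e4]
      linear_combination (0) * hR + (x^2*u - x^2 + x*u^2 + x*u) * h2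
  have hn1 : ¬ (x = x ∧ u * x = W.negY x (u * x)) := by
    rintro ⟨-, hh⟩
    rw [negY, e1, e3] at hh
    apply hx0
    linear_combination hh - u * x * h2
  obtain ⟨q1, E1⟩ := add_coords' (x₃ := (x^2+u^2+x+u)) (y₃ := ((x+u)*((x^2+u^2+x+u)+x)+u*x+(x^2+u^2+x+u)))
    h h hs1 hn1 (by 
      rw [e1, e2]
      linear_combination (0) * hR + (-x*u + x) * h2) (by
      rw [e1, e3]
      linear_combination (-2) * hR + (x^2*u^2 + 2*x^2*u + 2*x^2 + x*u^2 + 3*x*u + x + u^3 + 2*u^2 + u - 1) * h2)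
  rw [E1]
  have n1 : W.negY x'' y'' = -y'' - x'' := by rw [negY, e1, e3]; ring
  have n2 : W.negY x' y' = -y' - x' := by rw [negY, e1, e3]; ring
  have hs2 : IsSlope W x'' (W.negY x'' y'') x' (W.negY x' y') (u + x + x ^ 2) := by
    rw [n1, n2, hx, hy, hx', hy']
    constructor
    · linear_combination (x^3 + x^2*u^2 + x^2*u + x^2 + 2*x*u^4 + 2*x*u^3 + 2*x*u^2 + 2*x*u + 2*u^6 + 4*u^5 + 4*u^4 + 4*u^3 + 2*u^2 - 2) * hR + (-x^2*u^8 - 3*x^2*u^7 - 4*x^2*u^6 - 4*x^2*u^5 - 3*x^2*u^4 - x^2*u^3 + 2*x^2*u^2 + 2*x^2*u + x^2 + x*u^4 + x*u^3 + x*u^2 + x*u + u^6 + 2*u^5 + 2*u^4 + 2*u^3 + u^2 - 1) * h2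
    · rw [e1, e2, e3, e4]
      linear_combination (x^5 + x^4*u^2 + x^4*u + 2*x^3*u^4 + 2*x^3*u^3 + x^3*u^2 + x^3 + 2*x^2*u^6 + 4*x^2*u^5 + 4*x^2*u^4 + x^2*u^3 + x^2*u^2 + x^2*u - x^2 + 2*x*u^8 + 6*x*u^7 + 8*x*u^6 + 6*x*u^5 + 2*x*u^4 + 2*x*u^3 - 2*x*u + 2*x + 2*u^10 + 8*u^9 + 14*u^8 + 14*u^7 + 8*u^6 + 4*u^5 - 4*u^3 + 2*u) * hR + (-x^2*u^12 - 5*x^2*u^11 - 11*x^2*u^10 - 14*x^2*u^9 - 11*x^2*u^8 - 6*x^2*u^7 - x^2*u^6 + 4*x^2*u^5 + 4*x^2*u^4 - x^2*u^3 - x^2*u^2 - x^2 + x*u^8 + 3*x*u^7 + 4*x*u^6 + 3*x*u^5 + x*u^4 + x*u^3 - x*u + x + u^10 + 4*u^9 + 7*u^8 + 7*u^7 + 4*u^6 + 2*u^5 - 2*u^3 + u) * h2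
  have hn2 : ¬ (x'' = x' ∧ (W.negY x'' y'') = W.negY x' (W.negY x' y')) := by
    rintro ⟨hh, -⟩
    rw [hx', hx] at hh
    exact sq_ne_four h2 hx0 hx1 hh
  obtain ⟨q2, E2⟩ := add_coords' (x₃ := (x^2+u^2+x+u)) (y₃ := ((x+u)*((x^2+u^2+x+u)+x)+u*x+(x^2+u^2+x+u)))
    ((W.nonsingular_neg x'' y'').mpr h'') ((W.nonsingular_neg x' y').mpr h') hs2 hn2 (by 
      rw [e1, e2, hx, hx']
      linear_combination (2) * hR + (-x^2*u^2 - 2*x^2*u - x*u + 1) * h2) (by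
      rw [e1, e3, n1, hx', hy']
      linear_combination (-2) * hR + (x^2*u^2 + 2*x^2*u + 2*x^2 + x*u^2 + 3*x*u + x + u^3 + 2*u^2 + u - 1) * h2)
  rw [E2]

lemma ord_one (h2 : (2 : K) = 0) (e1 : W.a₁ = 1) (e2 : W.a₂ = 1) (e3 : W.a₃ = 0) (e4 : W.a₄ = 0)
    (e6 : W.a₆ = 1) {x y : K} (h : W.Nonsingular x y) (hx0 : x ≠ 0) (hx1 : x ≠ 1)
    {x' y' : K} (h' : W.Nonsingular x' y') (hx : x' = x ^ 4) (hy : y' = y ^ 4) 
    {x'' y'' : K} (h'' : W.Nonsingular x'' y'') (hx' : x'' = x ^ 2) (hy' : y'' = y ^ 2) : 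
    Point.some x y h + Point.some x y h = Point.some x'' y'' h'' - Point.some x' y' h' := by
  rw [sub_eq_add_neg, Point.neg_some]
  obtain ⟨u, rfl⟩ : ∃ u, y = u * x := ⟨y / x, by rw [div_mul_cancel₀ _ hx0]⟩
  have hR := h.1
  rw [equation_iff, e1, e2, e3, e4, e6] at hR
  have hs1 : IsSlope W x (u * x) x (u * x) (x + u) := by
    constructor
    · ring
    · rw [e1, e2, e3, e4]
      linear_combination (0) * hR + (x^2*u - x^2 + x*u^2 + x*u - x) * h2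
  have hn1 : ¬ (x = x ∧ u * x = W.negY x (u * x)) := by
    rintro ⟨-, hh⟩
    rw [negY, e1, e3] at hh
    apply hx0
    linear_combination hh - u * x * h2
  obtain ⟨q1, E1⟩ := add_coords' (x₃ := (x^2+u^2+x+u+1)) (y₃ := ((x+u)*((x^2+u^2+x+u+1)+x)+u*x+(x^2+u^2+x+u+1)))
    h h hs1 hn1 (by 
      rw [e1, e2]
      linear_combination (0) * hR + (-x*u + x + 1) * h2) (by
      rw [e1, e3]
      linear_combination (-2) * hR + (x^2*u^2 + 2*x^2*u + x^2 + x*u^2 + 3*x*u + 2*x + u^3 + 2*u^2 + 2*u) * h2)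
  rw [E1]
  have n2 : W.negY x' y' = -y' - x' := by rw [negY, e1, e3]; ring
  have hs2 : IsSlope W x'' y'' x' (W.negY x' y') (u + x + x ^ 2) := by
    rw [n2, hx, hy, hx', hy']
    constructor
    · linear_combination (x^3 + x^2*u^2 + x^2*u + 2*x*u^4 + 2*x*u^3 + 2*u^6 + 4*u^5 - 2*u^3 - 2) * hR + (-x^2*u^8 - 3*x^2*u^7 - x^2*u^6 + 3*x^2*u^5 + x^2*u^4 - x^2*u^3 + x^2*u^2 + 2*x^2*u - x^2 + x*u^4 + x*u^3 + u^6 + 2*u^5 - u^3 - 1) * h2
    · rw [e1, e2, e3, e4]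
      linear_combination (x^5 + x^4*u^2 + x^4*u - x^4 + 2*x^3*u^4 + 2*x^3*u^3 - x^3*u^2 - 2*x^3*u + 2*x^3 + 2*x^2*u^6 + 4*x^2*u^5 - 5*x^2*u^3 + x^2*u^2 + 4*x^2*u - 3*x^2 + 2*x*u^8 + 6*x*u^7 + 2*x*u^6 - 8*x*u^5 - 4*x*u^4 + 10*x*u^3 - 2*x*u^2 - 8*x*u + 6*x + 2*u^10 + 8*u^9 + 6*u^8 - 12*u^7 - 14*u^6 + 14*u^5 + 10*u^4 - 22*u^3 + 16*u - 8) * hR + (-x^2*u^12 - 5*x^2*u^11 - 6*x^2*u^10 + 7*x^2*u^9 + 16*x^2*u^8 - 6*x^2*u^7 - 18*x^2*u^6 + 15*x^2*u^5 + 16*x^2*u^4 - 21*x^2*u^3 - 3*x^2*u^2 + 14*x^2*u - 6*x^2 + x*u^8 + 3*x*u^7 + x*u^6 - 4*x*u^5 - 2*x*u^4 + 5*x*u^3 - x*u^2 - 4*x*u + 3*x + u^10 + 4*u^9 + 3*u^8 - 6*u^7 - 7*u^6 + 7*u^5 + 5*u^4 - 11*u^3 + 8*u - 4) * h2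
  have hn2 : ¬ (x'' = x' ∧ y'' = W.negY x' (W.negY x' y')) := by
    rintro ⟨hh, -⟩
    rw [hx', hx] at hh
    exact sq_ne_four h2 hx0 hx1 hh
  obtain ⟨q2, E2⟩ := add_coords' (x₃ := (x^2+u^2+x+u+1)) (y₃ := ((x+u)*((x^2+u^2+x+u+1)+x)+u*x+(x^2+u^2+x+u+1)))
    h'' ((W.nonsingular_neg x' y').mpr h') hs2 hn2 (by 
      rw [e1, e2, hx, hx']
      linear_combination (2) * hR + (-x^2*u^2 - 2*x^2*u + x^2 - x*u + 2) * h2) (by
      rw [e1, e3, hx', hy']
      linear_combination (-2) * hR + (2*x^2*u^2 + 2*x^2*u + 2*x^2 + x*u^2 + 3*x*u + 2*x + u^3 + 2*u^2 + 2*u) * h2)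
  rw [E2]

lemma ord_four (h2 : (2 : K) = 0) (e1 : W.a₁ = 1) (e3 : W.a₃ = 0) (e4 : W.a₄ = 0)
    (e6 : W.a₆ = 1) {x y : K} (h : W.Nonsingular x y) (hx : x = 0 ∨ x = 1) :
    (4 : ℤ) • Point.some x y h = 0 := by
  have zero : ∀ {y : K} (h : W.Nonsingular 0 y), (2 : ℤ) • Point.some 0 y h = 0 := by
    intro y h
    rw [two_zsmul]
    apply Point.add_of_Y_eq rfl
    rw [negY, e3]; linear_combination y * h2
  rcases hx with rfl | rfl
  · rw [show (4 : ℤ) = 2 * 2 from rfl, mul_zsmul, zero, zsmul_zero]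
  · have hR := h.1
    rw [equation_iff, e1, e3, e4, e6] at hR
    have hs1 : IsSlope W 1 y 1 y (1 + y) := by
      constructor
      · ring
      · rw [e1, e3, e4]
        linear_combination (y + y ^ 2 - 1 - W.a₂ + y) * h2 + 0 * hR
    have hn1 : ¬ ((1 : K) = 1 ∧ y = W.negY 1 y) := by
      rintro ⟨-, hh⟩
      rw [negY, e1, e3] at hh
      have : (1 : K) = 0 := by linear_combination hh - y * h2
      exact one_ne_zero this
    obtain ⟨q1, E1⟩ := add_coords h h hs1 hn1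
    have e : (1 + y) ^ 2 + W.a₁ * (1 + y) - W.a₂ - 1 - 1 = 0 := by
      rw [e1]
      linear_combination hR + (y + 1) * h2
    rw [show (4 : ℤ) = 2 * 2 from rfl, mul_zsmul, two_zsmul (Point.some 1 y h), E1]
    clear E1
    revert q1
    rw [e]
    intro q1
    exact zero q1

end ordinary

section final

variable {M : Type*} [Field M] [Algebra (ZMod 2) M] [DecidableEq M]

omit [DecidableEq M] in
lemma two_eq_zero : (2 : M) = 0 := by
  have : (algebraMap (ZMod 2) M) 2 = 0 := by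
    rw [show (2 : ZMod 2) = 0 from rfl, map_zero]
  rwa [map_ofNat] at this

lemma frob_some_two (W : Affine (ZMod 2)) {x y : M} (h : (W⁄M).Nonsingular x y) :
    ∃ h', frobPt W (Point.some x y h) = Point.some (x ^ 2) (y ^ 2) h' := by
  obtain ⟨h', e⟩ := frobPt_some (L := M) W h
  refine ⟨?_, e.trans (some_congr ?_ ?_)⟩
  · simpa only [ZMod.card] using h'
  · rw [ZMod.card]
  · rw [ZMod.card]

/-- the statement -/
def CharEq (W : Affine (ZMod 2)) (P : (W⁄M).Point) : Prop :=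
  frobPt W (frobPt W P) - ((Fintype.card (ZMod 2) : ℤ) + 1 - (Nat.card W.Point : ℤ)) • frobPt W P + 
        (Fintype.card (ZMod 2) : ℤ) • P = 0

lemma charEq_iff (W : Affine (ZMod 2)) {n : ℕ} (hn : Nat.card W.Point = n) (P : (W⁄M).Point) :
    CharEq W P ↔ frobPt W (frobPt W P) - ((3 : ℤ) - n) • frobPt W P + (P + P) = 0 := by
  rw [CharEq, hn, ZMod.card]
  norm_num [two_zsmul]
  
lemma bit (a : ZMod 2) : a = 0 ∨ a = 1 := by revert a; decide

lemma charEq_ss0 (W : Affine (ZMod 2)) (e1 : W.a₁ = 0) (e2 : W.a₂ = 0) (e3 : W.a₃ = 1)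
    (e4 : W.a₄ = 0) (hΔ : W.Δ ≠ 0) (P : (W⁄M).Point) : CharEq W P := by
  have hn : Nat.card W.Point = 3 := by
    rw [card_two W hΔ, e1, e2, e3, e4]
    rcases bit W.a₆ with h | h <;> rw [h] <;> decide
  rw [charEq_iff W hn]
  have h2 := two_eq_zero (M := M)
  match P with
  | 0 => simp
  | .some x y h =>
    obtain ⟨h', E1⟩ := frob_some_two W h
    obtain ⟨h'', E2⟩ := frob_some_two W h'
    rw [E1, E2]
    have := ss_zero (W := W⁄M) h2 (by change algebraMap _ _ W.a₁ = 0; rw [e1, map_zero])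
      (by change algebraMap _ _ W.a₂ = 0; rw [e2, map_zero])
      (by change algebraMap _ _ W.a₃ = 1; rw [e3, map_one])
      (by change algebraMap _ _ W.a₄ = 0; rw [e4, map_zero])
      (by change (algebraMap _ _ W.a₆) ^ 2 = algebraMap _ _ W.a₆; rw [← map_pow]; congr 1; 
          rcases bit W.a₆ with h | h <;> rw [h] <;> decide) h h'' (by ring) (by ring)
    rw [← this]
    norm_num

lemma charEq_ss1 (W : Affine (ZMod 2)) (e1 : W.a₁ = 0) (e2 : W.a₂ = 0) (e3 : W.a₃ = 1)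
    (e4 : W.a₄ = 1) (hΔ : W.Δ ≠ 0) (P : (W⁄M).Point) : CharEq W P := by
  have h2 := two_eq_zero (M := M)
  match P with
  | 0 => simp [CharEq]
  | .some x y h =>
    obtain ⟨h', E1⟩ := frob_some_two W h
    obtain ⟨h'', E2⟩ := frob_some_two W h'
    have := ss_two (W := W⁄M) h2 (by change algebraMap _ _ W.a₁ = 0; rw [e1, map_zero])
      (by change algebraMap _ _ W.a₂ = 0; rw [e2, map_zero])
      (by change algebraMap _ _ W.a₃ = 1; rw [e3, map_one])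
      (by change algebraMap _ _ W.a₄ = 1; rw [e4, map_one])
      (by change (algebraMap _ _ W.a₆) ^ 2 = algebraMap _ _ W.a₆; rw [← map_pow]; congr 1; 
          rcases bit W.a₆ with h | h <;> rw [h] <;> decide) h h'' (by ring) (by ring) h' rfl rfl
    rcases bit W.a₆ with h6 | h6
    · have hn : Nat.card W.Point = 5 := by
        rw [card_two W hΔ, e1, e2, e3, e4, h6]; decide
      rw [charEq_iff W hn, E1, E2]
      have t := this.2 (by change algebraMap _ _ W.a₆ = 0; rw [h6, map_zero])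
      have : Point.some _ _ h'' - ((3 : ℤ) - (5 : ℕ)) • Point.some _ _ h' + 
        (Point.some x y h + Point.some x y h) = (Point.some _ _ h'' + 
        (Point.some x y h + Point.some x y h)) + (Point.some _ _ h' + Point.some _ _ h') := by
        push_cast; module
      rw [this, t]; abel
    · have hn : Nat.card W.Point = 1 := by
        rw [card_two W hΔ, e1, e2, e3, e4, h6]; decide
      rw [charEq_iff W hn, E1, E2]
      have t := this.1 (by change algebraMap _ _ W.a₆ = 1; rw [h6, map_one])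
      have : Point.some _ _ h'' - ((3 : ℤ) - (1 : ℕ)) • Point.some _ _ h' + 
        (Point.some x y h + Point.some x y h) = (Point.some _ _ h'' + 
        (Point.some x y h + Point.some x y h)) - (Point.some _ _ h' + Point.some _ _ h') := by
        push_cast; module
      rw [this, t]; abel

lemma charEq_of_four (W : Affine (ZMod 2)) (P : (W⁄M).Point) {m : ℤ} (hm : Odd m) (hP : m • P = 0)
    (h4 : (4 : ℤ) • P = 0) : CharEq W P := by
  have : P = 0 := by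
    obtain ⟨k, rfl⟩ := hm
    have h1 : (2 * k + 1) ^ 2 = 4 * (k * (k + 1)) + 1 := by ring
    have h2 : ((2 * k + 1) ^ 2 : ℤ) • P = 0 := by rw [pow_two, mul_zsmul, hP, zsmul_zero]
    rw [h1, add_zsmul, one_zsmul, mul_comm, mul_zsmul, h4, zsmul_zero, zero_add] at h2
    exact h2
  rw [this, CharEq]
  simp

lemma charEq_ord (W : Affine (ZMod 2)) (e1 : W.a₁ = 1) (e3 : W.a₃ = 0)
    (e4 : W.a₄ = 0) (e6 : W.a₆ = 1) (hΔ : W.Δ ≠ 0) (P : (W⁄M).Point) {m : ℤ} (hm : Odd m)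
    (hP : m • P = 0) : CharEq W P := by
  have h2 := two_eq_zero (M := M)
  match P, hP with
  | 0, _ => simp [CharEq]
  | .some x y h, hP =>
    have f1 : (W⁄M).a₁ = 1 := by change algebraMap _ _ W.a₁ = 1; rw [e1, map_one]
    have f3 : (W⁄M).a₃ = 0 := by change algebraMap _ _ W.a₃ = 0; rw [e3, map_zero]
    have f4 : (W⁄M).a₄ = 0 := by change algebraMap _ _ W.a₄ = 0; rw [e4, map_zero]
    have f6 : (W⁄M).a₆ = 1 := by change algebraMap _ _ W.a₆ = 1; rw [e6, map_one]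
    by_cases hx : x = 0 ∨ x = 1
    · exact charEq_of_four W _ hm hP (ord_four h2 f1 f3 f4 f6 h hx)
    rw [not_or] at hx
    obtain ⟨h', E1⟩ := frob_some_two W h
    obtain ⟨h'', E2⟩ := frob_some_two W h'
    rcases bit W.a₂ with e2 | e2
    · have hn : Nat.card W.Point = 4 := by
        rw [card_two W hΔ, e1, e2, e3, e4, e6]; decide
      have f2 : (W⁄M).a₂ = 0 := by change algebraMap _ _ W.a₂ = 0; rw [e2, map_zero]
      rw [charEq_iff W hn, E1, E2]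
      have t := ord_zero h2 f1 f2 f3 f4 f6 h hx.1 hx.2 h'' (by ring) (by ring) h' rfl rfl
      rw [t]
      push_cast; module
    · have hn : Nat.card W.Point = 2 := by
        rw [card_two W hΔ, e1, e2, e3, e4, e6]; decide
      have f2 : (W⁄M).a₂ = 1 := by change algebraMap _ _ W.a₂ = 1; rw [e2, map_one]
      rw [charEq_iff W hn, E1, E2]
      have t := ord_one h2 f1 f2 f3 f4 f6 h hx.1 hx.2 h'' (by ring) (by ring) h' rfl rfl
      rw [t]
      push_cast; module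

lemma disc_two_zero (W : Affine (ZMod 2)) (e1 : W.a₁ = 0) (hΔ : W.Δ ≠ 0) : W.a₃ = 1 := by
  obtain ⟨a1, a2, a3, a4, a6⟩ := W
  simp only [WeierstrassCurve.Δ, WeierstrassCurve.b₂, WeierstrassCurve.b₄, WeierstrassCurve.b₆,
    WeierstrassCurve.b₈] at e1 hΔ ⊢
  revert a1 a2 a3 a4 a6
  decide

lemma disc_two_one (W : Affine (ZMod 2)) (e1 : W.a₁ = 1) (e3 : W.a₃ = 0) (e4 : W.a₄ = 0) 
    (hΔ : W.Δ ≠ 0) : W.a₆ = 1 := by
  obtain ⟨a1, a2, a3, a4, a6⟩ := W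
  simp only [WeierstrassCurve.Δ, WeierstrassCurve.b₂, WeierstrassCurve.b₄, WeierstrassCurve.b₆,
    WeierstrassCurve.b₈] at e1 e3 e4 hΔ ⊢
  revert a1 a2 a3 a4 a6
  decide

/-- Frobenius satisfies its characteristic equation on points of odd order, over `𝔽₂`. -/
theorem char_eq_two (W : Affine (ZMod 2)) (hΔ : W.Δ ≠ 0)
    {m : ℤ} (hm : Odd m) (P : (W⁄M).Point) (hP : m • P = 0) : 
    frobPt W (frobPt W P) - ((Fintype.card (ZMod 2) : ℤ) + 1 - (Nat.card W.Point : ℤ)) • frobPt W P + 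
        (Fintype.card (ZMod 2) : ℤ) • P = 0 := by
  rcases bit W.a₁ with e1 | e1
  · have e3 := disc_two_zero W e1 hΔ
    let C : VariableChange (ZMod 2) := ⟨1, W.a₂, 0, 0⟩
    have hΔ' : (C • W : WeierstrassCurve (ZMod 2)).Δ ≠ 0 := by
      rw [WeierstrassCurve.variableChange_Δ]
      simpa [C] using hΔ
    have g1 : (C • W : WeierstrassCurve (ZMod 2)).a₁ = 0 := by
      rw [WeierstrassCurve.variableChange_a₁]; simp [C, e1]
    have g2 : (C • W : WeierstrassCurve (ZMod 2)).a₂ = 0 := by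
      rw [WeierstrassCurve.variableChange_a₂]; simp only [C, e1]
      generalize W.a₂ = a; revert a; decide
    have g3 : (C • W : WeierstrassCurve (ZMod 2)).a₃ = 1 := by
      rw [WeierstrassCurve.variableChange_a₃]; simp [C, e1, e3]
    apply char_eq_of_vc W C P
    intro Q _
    rcases bit (C • W : WeierstrassCurve (ZMod 2)).a₄ with g4 | g4
    · exact charEq_ss0 (C • W : WeierstrassCurve (ZMod 2)) g1 g2 g3 g4 hΔ' Q
    · exact charEq_ss1 (C • W : WeierstrassCurve (ZMod 2)) g1 g2 g3 g4 hΔ' Q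
  · let C : VariableChange (ZMod 2) := ⟨1, W.a₃, 0, W.a₄ + W.a₃⟩
    have hΔ' : (C • W : WeierstrassCurve (ZMod 2)).Δ ≠ 0 := by
      rw [WeierstrassCurve.variableChange_Δ]
      simpa [C] using hΔ
    have g1 : (C • W : WeierstrassCurve (ZMod 2)).a₁ = 1 := by
      rw [WeierstrassCurve.variableChange_a₁]; simp [C, e1]
    have g3 : (C • W : WeierstrassCurve (ZMod 2)).a₃ = 0 := by
      rw [WeierstrassCurve.variableChange_a₃]; simp only [C, e1]
      generalize W.a₃ = a; generalize W.a₄ = b; revert a b; decide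
    have g4 : (C • W : WeierstrassCurve (ZMod 2)).a₄ = 0 := by
      rw [WeierstrassCurve.variableChange_a₄]; simp only [C, e1]
      generalize W.a₃ = a; generalize W.a₄ = b; generalize W.a₂ = c; revert a b c; decide
    have g6 := disc_two_one (C • W : WeierstrassCurve (ZMod 2)) g1 g3 g4 hΔ'
    apply char_eq_of_vc W C P
    intro Q hQ
    apply charEq_ord (C • W : WeierstrassCurve (ZMod 2)) g1 g3 g4 g6 hΔ' Q hm
    apply (psi (M := M) W C).injective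
    rw [map_zsmul, map_zero, hQ, hP]

end final

/-- **Frobenius satisfies its characteristic equation** on points of odd order of an elliptic curve
over a prime field `𝔽_ℓ` (any Weierstrass equation, any prime `ℓ`). -/
theorem char_eq (l : ℕ) [Fact l.Prime] (W : Affine (ZMod l)) (hΔ : W.Δ ≠ 0)
    {M : Type*} [Field M] [Algebra (ZMod l) M] [DecidableEq M] [Algebra.IsAlgebraic (ZMod l) M]
    {m : ℤ} (hm : Odd m) (P : (W⁄M).Point) (hP : m • P = 0) : 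
    frobPt W (frobPt W P) - ((l : ℤ) + 1 - (Nat.card W.Point : ℤ)) • frobPt W P + 
        (l : ℤ) • P = 0 := by
  rcases eq_or_ne l 2 with rfl | hl
  · have := char_eq_two W hΔ hm P hP
    rwa [ZMod.card] at this
  · haveI : WeierstrassCurve.IsElliptic W := ⟨isUnit_iff_ne_zero.mpr hΔ⟩
    have h2 : (2 : ZMod l) ≠ 0 := by
      intro h
      have : ((2 : ℕ) : ZMod l) = 0 := by exact_mod_cast h
      rw [ZMod.natCast_eq_zero_iff] at this
      exact hl ((Nat.prime_dvd_prime_iff_eq Fact.out Nat.prime_two).mp this)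
    have := char_eq_odd W h2 hm P hP
    rwa [ZMod.card] at this

end Fermat.Agent.FrobE
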