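import Mathlib
import Fermat.Agent.FrobE.Add
import Fermat.Agent.EC.Nonsing

set_option autoImplicit false

/-!
# The reduction homomorphism at a place of good reduction
-/

namespace Fermat.Agent.FrobE

open WeierstrassCurve WeierstrassCurve.Affine
open Fermat.Agent.EC (IsInt InE1 xX xZ xX_some xZ_some xX_zero xZ_zero)

variable {K : Type*} [Field K] (A : ValuationSubring K) {k : Type*} [Field k] (π : A →+* k)

/-- `Wk` is the reduction of `W` -/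
structure IsRed (W : Affine K) (Wk : Affine k) : Prop where
  m₁ : W.a₁ ∈ A
  m₂ : W.a₂ ∈ A
  m₃ : W.a₃ ∈ A
  m₄ : W.a₄ ∈ A
  m₆ : W.a₆ ∈ A
  e₁ : π ⟨W.a₁, m₁⟩ = Wk.a₁
  e₂ : π ⟨W.a₂, m₂⟩ = Wk.a₂
  e₃ : π ⟨W.a₃, m₃⟩ = Wk.a₃
  e₄ : π ⟨W.a₄, m₄⟩ = Wk.a₄
  e₆ : π ⟨W.a₆, m₆⟩ = Wk.a₆

variable {A π} {W : Affine K} {Wk : Affine k}

lemma IsRed.isInt (h : IsRed A π W Wk) : IsInt A.valuation W :=
  ⟨(A.valuation_le_one_iff _).mpr h.m₁, (A.valuation_le_one_iff _).mpr h.m₂,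
    (A.valuation_le_one_iff _).mpr h.m₃, (A.valuation_le_one_iff _).mpr h.m₄,
    (A.valuation_le_one_iff _).mpr h.m₆⟩

/-- lifted curve -/
def IsRed.lift (h : IsRed A π W Wk) : WeierstrassCurve A :=
  ⟨⟨W.a₁, h.m₁⟩, ⟨W.a₂, h.m₂⟩, ⟨W.a₃, h.m₃⟩, ⟨W.a₄, h.m₄⟩, ⟨W.a₆, h.m₆⟩⟩

lemma IsRed.lift_map (h : IsRed A π W Wk) : h.lift.map A.subtype = W := rfl

lemma IsRed.lift_red (h : IsRed A π W Wk) : h.lift.map π = Wk := by
  ext
  · exact h.e₁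
  · exact h.e₂
  · exact h.e₃
  · exact h.e₄
  · exact h.e₆

variable (hπ : ∀ a : A, π a = 0 ↔ A.valuation (a : K) < 1)

include hπ in
lemma IsRed.Δ_eq_one (h : IsRed A π W Wk) (hΔ : Wk.Δ ≠ 0) : A.valuation W.Δ = 1 := by
  have e1 : (h.lift.Δ : K) = W.Δ := by
    have := h.lift.map_Δ A.subtype
    rw [h.lift_map] at this
    exact this.symm
  have e2 : π h.lift.Δ = Wk.Δ := by
    have := h.lift.map_Δ π
    rw [h.lift_red] at this
    exact this.symm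
  have h1 : ¬ A.valuation (h.lift.Δ : K) < 1 := by
    rw [← hπ, e2]; exact hΔ
  rw [← e1]
  exact le_antisymm ((A.valuation_le_one_iff _).mpr h.lift.Δ.2) (not_lt.mp h1)

lemma IsRed.y_mem (h : IsRed A π W Wk) {x y : K} (hxy : W.Equation x y) (hx : x ∈ A) : y ∈ A :=
  (A.valuation_le_one_iff _).mp (h.isInt.y_le_one hxy ((A.valuation_le_one_iff _).mpr hx))

lemma IsRed.equation (h : IsRed A π W Wk) {x y : A} (hxy : W.Equation (x : K) (y : K)) :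
    Wk.Equation (π x) (π y) := by
  have e : h.lift.toAffine.Equation x y := by
    have := (Affine.map_equation (W := h.lift.toAffine) (f := A.subtype) 
      Subtype.coe_injective x y)
    exact this.mp hxy
  have := e.map π
  rw [← h.lift_red]
  exact this

lemma IsRed.equation' (h : IsRed A π W Wk) {x y : K} (hxy : W.Equation x y) (hx : x ∈ A) :
    Wk.Equation (π ⟨x, hx⟩) (π ⟨y, h.y_mem hxy hx⟩) :=
  h.equation (x := ⟨x, hx⟩) (y := ⟨y, h.y_mem hxy hx⟩) hxy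

open Classical in
/-- reduction of points -/
noncomputable def redFun (h : IsRed A π W Wk) (hΔ : Wk.Δ ≠ 0) : W.Point → Wk.Point
  | .zero => 0
  | .some x y hxy => if hx : x ∈ A then 
      .some (π ⟨x, hx⟩) (π ⟨y, h.y_mem hxy.1 hx⟩)
        ((Wk.equation_iff_nonsingular_of_Δ_ne_zero hΔ).mp (h.equation' hxy.1 hx))
    else 0

variable (h : IsRed A π W Wk) (hΔ : Wk.Δ ≠ 0)

lemma redFun_zero : redFun h hΔ 0 = 0 := rfl

lemma redFun_some {x y : K} (hxy : W.Nonsingular x y) (hx : x ∈ A) :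
    redFun h hΔ (.some x y hxy) = .some (π ⟨x, hx⟩) (π ⟨y, h.y_mem hxy.1 hx⟩)
        ((Wk.equation_iff_nonsingular_of_Δ_ne_zero hΔ).mp (h.equation' hxy.1 hx)) := by
  simp only [redFun, dif_pos hx]

lemma redFun_some_not {x y : K} (hxy : W.Nonsingular x y) (hx : x ∉ A) :
    redFun h hΔ (.some x y hxy) = 0 := by
  simp only [redFun, dif_neg hx]

lemma inE1_zero' : InE1 A.valuation (xX (W := W)) xZ 0 := by
  simp [InE1]

lemma inE1_some_iff {x y : K} (hxy : W.Nonsingular x y) :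
    InE1 A.valuation (xX (W := W)) xZ (.some x y hxy) ↔ x ∉ A := by
  rw [InE1, xX_some, xZ_some, map_one, ← not_le, A.valuation_le_one_iff]

lemma redFun_eq_zero_iff (P : W.Point) : redFun h hΔ P = 0 ↔ InE1 A.valuation (xX (W := W)) xZ P := by
  match P with
  | 0 => exact ⟨fun _ => inE1_zero', fun _ => rfl⟩
  | .some x y hxy =>
    rw [inE1_some_iff]
    by_cases hx : x ∈ A
    · rw [redFun_some h hΔ hxy hx]
      exact ⟨fun e => absurd e (Point.some_ne_zero _), fun e => absurd hx e⟩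
    · exact ⟨fun _ => hx, fun _ => redFun_some_not h hΔ hxy hx⟩

lemma some_congr' {X Y X' Y' : k} {h : Wk.Nonsingular X Y} {h' : Wk.Nonsingular X' Y'}
    (hX : X = X') (hY : Y = Y') : Point.some X Y h = Point.some X' Y' h' := by
  subst hX hY; rfl

lemma redFun_neg (P : W.Point) : redFun h hΔ (-P) = -redFun h hΔ P := by
  match P with
  | 0 => rfl
  | .some x y hxy =>
    rw [Point.neg_some]
    by_cases hx : x ∈ A
    · rw [redFun_some h hΔ hxy hx, redFun_some h hΔ _ hx, Point.neg_some]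
      apply some_congr' rfl
      have e : (⟨W.negY x y, h.y_mem ((W.nonsingular_neg x y).mpr hxy).1 hx⟩ : A) =
        -⟨y, h.y_mem hxy.1 hx⟩ - ⟨W.a₁, h.m₁⟩ * ⟨x, hx⟩ - ⟨W.a₃, h.m₃⟩ := Subtype.ext rfl
      rw [e, map_sub, map_sub, map_mul, map_neg, h.e₁, h.e₃]
      rfl
    · rw [redFun_some_not h hΔ hxy hx, redFun_some_not h hΔ _ hx]
      rfl

section add

variable [DecidableEq K] [DecidableEq k]

omit [DecidableEq K] [DecidableEq k] in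
include hπ in
lemma pi_ne_zero_val {a : A} (ha : π a ≠ 0) : A.valuation (a : K) = 1 :=
  le_antisymm ((A.valuation_le_one_iff _).mpr a.2) (not_lt.mp (fun hl => ha ((hπ a).mpr hl)))

omit [DecidableEq K] [DecidableEq k] in
include hπ in
/-- division by an element with nonzero reduction -/
lemma mem_of_mul {l : K} {a b : A} (ha : π a ≠ 0) (e : l * a = b) : l ∈ A := by
  rw [← A.valuation_le_one_iff]
  have := congrArg A.valuation e
  rw [map_mul, pi_ne_zero_val hπ ha, mul_one] at this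
  rw [this]
  exact (A.valuation_le_one_iff _).mpr b.2

include hπ in
lemma redFun_add_int {x₁ y₁ x₂ y₂ : K} (h₁ : W.Nonsingular x₁ y₁) (h₂ : W.Nonsingular x₂ y₂)
    (hx₁ : x₁ ∈ A) (hx₂ : x₂ ∈ A) :
    redFun h hΔ (.some x₁ y₁ h₁ + .some x₂ y₂ h₂) =
      redFun h hΔ (.some x₁ y₁ h₁) + redFun h hΔ (.some x₂ y₂ h₂) := by
  have hy₁ := h.y_mem h₁.1 hx₁
  have hy₂ := h.y_mem h₂.1 hx₂
  rw [redFun_some h hΔ h₁ hx₁, redFun_some h hΔ h₂ hx₂]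
  by_cases hk : π ⟨x₁, hx₁⟩ = π ⟨x₂, hx₂⟩ ∧ π ⟨y₁, hy₁⟩ = Wk.negY (π ⟨x₂, hx₂⟩) (π ⟨y₂, hy₂⟩)
  · rw [Point.add_of_Y_eq hk.1 hk.2, redFun_eq_zero_iff]
    have h₂' : W.Nonsingular x₂ (W.negY x₂ y₂) := (W.nonsingular_neg x₂ y₂).mpr h₂
    have e : (.some x₁ y₁ h₁ + .some x₂ y₂ h₂ : W.Point) =
      .some x₁ y₁ h₁ - .some x₂ (W.negY x₂ y₂) h₂' := by
      rw [sub_eq_add_neg, Point.neg_some]
      congr 1
      exact some_congr rfl (by rw [Affine.negY, Affine.negY]; ring)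
    rw [e]
    have hvx₁ : A.valuation x₁ ≤ 1 := (A.valuation_le_one_iff _).mpr hx₁
    apply h.isInt.sub_inE1 h₁ h₂' hvx₁
    · have : π (⟨x₁, hx₁⟩ - ⟨x₂, hx₂⟩) = 0 := by rw [map_sub, hk.1, sub_self]
      exact (hπ _).mp this
    · have e2 : π (⟨y₁, hy₁⟩ - (-⟨y₂, hy₂⟩ - ⟨W.a₁, h.m₁⟩ * ⟨x₂, hx₂⟩ - ⟨W.a₃, h.m₃⟩)) = 0 := by
        rw [map_sub, map_sub, map_sub, map_mul, map_neg, h.e₁, h.e₃, hk.2]
        rw [Affine.negY]; ring
      exact (hπ _).mp e2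
    · exact h.isInt.ns_of_Δ (h.Δ_eq_one hπ hΔ) hvx₁
  · have hK : ¬(x₁ = x₂ ∧ y₁ = W.negY x₂ y₂) := by
      rintro ⟨ex, ey⟩
      apply hk
      subst ex
      refine ⟨rfl, ?_⟩
      have e2 : (⟨y₁, hy₁⟩ : A) = -⟨y₂, hy₂⟩ - ⟨W.a₁, h.m₁⟩ * ⟨x₁, hx₁⟩ - ⟨W.a₃, h.m₃⟩ :=
        Subtype.ext ey
      rw [e2, map_sub, map_sub, map_mul, map_neg, h.e₁, h.e₃]
      rfl
    obtain ⟨l, x₃, y₃, h₃, hs, ex, ey, e⟩ := exists_add h₁ h₂ hK
    have hl : l ∈ A := by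
      by_cases hx : π ⟨x₁, hx₁⟩ = π ⟨x₂, hx₂⟩
      · have hd : π (⟨y₁, hy₁⟩ + ⟨y₂, hy₂⟩ + ⟨W.a₁, h.m₁⟩ * ⟨x₂, hx₂⟩ + ⟨W.a₃, h.m₃⟩) ≠ 0 := by
          rw [map_add, map_add, map_add, map_mul, h.e₁, h.e₃]
          intro h0
          apply hk
          refine ⟨hx, ?_⟩
          rw [Affine.negY]
          linear_combination h0
        exact mem_of_mul (b := ⟨x₁, hx₁⟩ ^ 2 + ⟨x₁, hx₁⟩ * ⟨x₂, hx₂⟩ + ⟨x₂, hx₂⟩ ^ 2 +
          ⟨W.a₂, h.m₂⟩ * (⟨x₁, hx₁⟩ + ⟨x₂, hx₂⟩) + ⟨W.a₄, h.m₄⟩ - ⟨W.a₁, h.m₁⟩ * ⟨y₁, hy₁⟩) hπ hd hs.r2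
      · have hd : π (⟨x₁, hx₁⟩ - ⟨x₂, hx₂⟩) ≠ 0 := by
          rw [map_sub]; exact sub_ne_zero.mpr hx
        exact mem_of_mul (b := ⟨y₁, hy₁⟩ - ⟨y₂, hy₂⟩) hπ hd hs.r1
    have hx₃ : x₃ ∈ A := by
      rw [ex]
      exact sub_mem (sub_mem (sub_mem (add_mem (pow_mem hl 2) (mul_mem h.m₁ hl)) h.m₂) hx₁) hx₂
    have hy₃ := h.y_mem h₃.1 hx₃
    rw [e, redFun_some h hΔ h₃ hx₃]
    symm
    have s1 : (⟨l, hl⟩ : A) * (⟨x₁, hx₁⟩ - ⟨x₂, hx₂⟩) = ⟨y₁, hy₁⟩ - ⟨y₂, hy₂⟩ := Subtype.ext hs.r1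
    have s2 : (⟨l, hl⟩ : A) * (⟨y₁, hy₁⟩ + ⟨y₂, hy₂⟩ + ⟨W.a₁, h.m₁⟩ * ⟨x₂, hx₂⟩ + ⟨W.a₃, h.m₃⟩) =
      ⟨x₁, hx₁⟩ ^ 2 + ⟨x₁, hx₁⟩ * ⟨x₂, hx₂⟩ + ⟨x₂, hx₂⟩ ^ 2 +
          ⟨W.a₂, h.m₂⟩ * (⟨x₁, hx₁⟩ + ⟨x₂, hx₂⟩) + ⟨W.a₄, h.m₄⟩ - ⟨W.a₁, h.m₁⟩ * ⟨y₁, hy₁⟩ :=
      Subtype.ext hs.r2
    have s3 : (⟨x₃, hx₃⟩ : A) = ⟨l, hl⟩ ^ 2 + ⟨W.a₁, h.m₁⟩ * ⟨l, hl⟩ - ⟨W.a₂, h.m₂⟩ - ⟨x₁, hx₁⟩ -
      ⟨x₂, hx₂⟩ := Subtype.ext ex
    have s4 : (⟨y₃, hy₃⟩ : A) = -(⟨l, hl⟩ * (⟨x₃, hx₃⟩ - ⟨x₁, hx₁⟩) + ⟨y₁, hy₁⟩) -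
      ⟨W.a₁, h.m₁⟩ * ⟨x₃, hx₃⟩ - ⟨W.a₃, h.m₃⟩ := Subtype.ext ey
    have t1 := congrArg π s1
    have t2 := congrArg π s2
    have t3 := congrArg π s3
    have t4 := congrArg π s4
    simp only [map_mul, map_add, map_sub, map_neg, map_pow, h.e₁, h.e₂, h.e₃, h.e₄] at t1 t2 t3 t4
    exact IsSlope.add ⟨t1, t2⟩ _ _ _ hk t3 t4

include hπ in
lemma redFun_add (P Q : W.Point) : redFun h hΔ (P + Q) = redFun h hΔ P + redFun h hΔ Q := by
  have hI := h.isInt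
  have hadd : ∀ P Q : W.Point, InE1 A.valuation (xX (W := W)) xZ P →
      InE1 A.valuation (xX (W := W)) xZ Q → InE1 A.valuation (xX (W := W)) xZ (P + Q) ∧
      InE1 A.valuation (xX (W := W)) xZ (P - Q) := fun P Q hP hQ =>
    (EC.isKummer W).inE1_add_sub A.valuation hI.b₂ hI.b₄ hI.b₆ hI.b₈ hP hQ
  -- both integral
  have key : ∀ P Q : W.Point, ¬ InE1 A.valuation (xX (W := W)) xZ P →
      ¬ InE1 A.valuation (xX (W := W)) xZ Q →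
      redFun h hΔ (P + Q) = redFun h hΔ P + redFun h hΔ Q := by
    intro P Q hP hQ
    match P, Q with
    | 0, _ => exact absurd inE1_zero' hP
    | _, 0 => exact absurd inE1_zero' hQ
    | .some x₁ y₁ h₁, .some x₂ y₂ h₂ =>
      rw [inE1_some_iff, not_not] at hP hQ
      exact redFun_add_int hπ h hΔ h₁ h₂ hP hQ
  have key2 : ∀ P Q : W.Point, InE1 A.valuation (xX (W := W)) xZ P →
      redFun h hΔ (P + Q) = redFun h hΔ P + redFun h hΔ Q := by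
    intro P Q hP
    have hP0 := (redFun_eq_zero_iff h hΔ P).mpr hP
    by_cases hQ : InE1 A.valuation (xX (W := W)) xZ Q
    · rw [hP0, (redFun_eq_zero_iff h hΔ Q).mpr hQ, (redFun_eq_zero_iff h hΔ _).mpr (hadd P Q hP hQ).1,
        add_zero]
    · have hR : ¬ InE1 A.valuation (xX (W := W)) xZ (P + Q) := by
        intro hR
        have := (hadd _ _ hR hP).2
        rw [add_sub_cancel_left] at this
        exact hQ this
      have hQ' : ¬ InE1 A.valuation (xX (W := W)) xZ (-Q) := by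
        rw [← redFun_eq_zero_iff h hΔ, redFun_neg, neg_eq_zero, redFun_eq_zero_iff]
        exact hQ
      have e := key (P + Q) (-Q) hR hQ'
      rw [add_neg_cancel_right, redFun_neg, hP0] at e
      rw [hP0, zero_add]
      exact (add_neg_eq_zero.mp e.symm)
  by_cases hP : InE1 A.valuation (xX (W := W)) xZ P
  · exact key2 P Q hP
  · by_cases hQ : InE1 A.valuation (xX (W := W)) xZ Q
    · rw [add_comm, key2 Q P hQ, add_comm]
    · exact key P Q hP hQ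

/-- the reduction homomorphism -/
noncomputable def redHom : W.Point →+ Wk.Point where
  toFun := redFun h hΔ
  map_zero' := rfl
  map_add' := redFun_add hπ h hΔ

lemma redHom_eq_zero_iff (P : W.Point) :
    redHom hπ h hΔ P = 0 ↔ InE1 A.valuation (xX (W := W)) xZ P := redFun_eq_zero_iff h hΔ P

/-- the reduction homomorphism is injective on torsion prime to the residue characteristic -/
lemma eq_zero_of_redHom {P : W.Point} {n : ℕ} (hn : A.valuation (n : K) = 1) (hnP : n • P = 0)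
    (hP : redHom hπ h hΔ P = 0) : P = 0 :=
  h.isInt.eq_zero_of_inE1 ((redHom_eq_zero_iff hπ h hΔ P).mp hP) hn hnP

end add

end Fermat.Agent.FrobE
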