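import Mathlib
import Fermat.Prelude.Def_FLTPrelim_Modularity
import Fermat.Prelude.Def_EllipticCurve_FrobeniusTrace
import Fermat.Agent.FrobE.CharTwo
import Fermat.Agent.FrobE.Reduction
import Fermat.Agent.Frob.Exists
import Fermat.Agent.Frob.QbarInst

set_option autoImplicit false

/-!
# Frobenius elements satisfy the characteristic equation on torsion of an elliptic curve
-/

namespace Fermat.Agent.FrobE

open WeierstrassCurve WeierstrassCurve.Affine
open FrobChar (frobPt frobPt_some)

section residue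

variable {L : Type*} [Field L] {A : ValuationSubring L} {l : ℕ}

lemma charP_residue (hl : l.Prime) (hA : A.LiesOverPrime l) :
    CharP (IsLocalRing.ResidueField A) l := by
  rw [CharP.charP_iff_prime_eq_zero hl]
  have h1 : ((l : A) : L) ∈ A.nonunits := by
    have : ((l : A) : L) = (l : L) := by push_cast; rfl
    rw [this]; exact hA
  have h2 : (l : A) ∈ IsLocalRing.maximalIdeal A :=
    ValuationSubring.coe_mem_nonunits_iff.mp h1
  have := (IsLocalRing.residue_eq_zero_iff _).mpr h2
  rwa [map_natCast] at this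

lemma valuation_lt_one_iff_residue (a : A) :
    IsLocalRing.residue A a = 0 ↔ A.valuation (a : L) < 1 := by
  rw [IsLocalRing.residue_eq_zero_iff, ← A.valuation_lt_one_iff]

lemma algebraic_residue [Algebra ℚ L] [Algebra.IsAlgebraic ℚ L] (hl : l.Prime) (hA : A.LiesOverPrime l)
    [Algebra (ZMod l) (IsLocalRing.ResidueField A)] :
    Algebra.IsAlgebraic (ZMod l) (IsLocalRing.ResidueField A) := by
  have : Fact l.Prime := ⟨hl⟩
  constructor
  intro x
  obtain ⟨b, rfl⟩ := Frob.residue_toVal_surjective hl hA x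
  apply IsIntegral.isAlgebraic
  obtain ⟨p, hp, hp0⟩ := b.2
  refine ⟨p.map (Int.castRingHom (ZMod l)), hp.map _, ?_⟩
  rw [Polynomial.eval₂_map]
  have e1 : (algebraMap (ZMod l) (IsLocalRing.ResidueField A)).comp (Int.castRingHom (ZMod l)) =
    ((IsLocalRing.residue A).comp (Frob.toVal A)).comp (algebraMap ℤ (integralClosure ℤ L)) :=
    RingHom.ext_int _ _
  rw [e1]
  change Polynomial.eval₂ _ (((IsLocalRing.residue A).comp (Frob.toVal A)) b) p = 0
  rw [← Polynomial.hom_eval₂]
  have : Polynomial.eval₂ (algebraMap ℤ (integralClosure ℤ L)) b p = 0 := by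
    apply Subtype.coe_injective
    change algebraMap (integralClosure ℤ L) L _ = 0
    rw [Polynomial.hom_eval₂]
    exact hp0
  rw [this, map_zero]

lemma val_nat_eq_one (hl : l.Prime) (hA : A.LiesOverPrime l) {n : ℕ} (hn : ¬ l ∣ n) :
    A.valuation (n : L) = 1 := by
  have h1 : A.valuation (n : L) ≤ 1 := (A.valuation_le_one_iff _).mpr (natCast_mem A n)
  refine le_antisymm h1 (not_lt.mp fun h => ?_)
  have := charP_residue hl hA
  have h2 : IsLocalRing.residue A (n : A) = 0 := by
    rw [valuation_lt_one_iff_residue]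
    have : ((n : A) : L) = (n : L) := by push_cast; rfl
    rw [this]; exact h
  rw [map_natCast, CharP.cast_eq_zero_iff _ l] at h2
  exact hn h2

end residue

section isRed

open scoped Pointwise

variable {L : Type*} [Field L] [Algebra ℚ L] {A : ValuationSubring L} {l : ℕ}

lemma isRed_int (W : WeierstrassCurve ℤ) [Algebra (ZMod l) (IsLocalRing.ResidueField A)] :
    IsRed A (IsLocalRing.residue A) ((W.map (Int.castRingHom ℚ))⁄L).toAffine
      ((W.reductionMod l)⁄(IsLocalRing.ResidueField A)).toAffine := by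
  have hm : ∀ a : ℤ, algebraMap ℚ L (Int.castRingHom ℚ a) ∈ A := by
    intro a
    rw [eq_intCast, map_intCast]
    exact intCast_mem A a
  have he : ∀ (a : ℤ) (h : algebraMap ℚ L (Int.castRingHom ℚ a) ∈ A),
      IsLocalRing.residue A ⟨_, h⟩ = algebraMap (ZMod l) (IsLocalRing.ResidueField A)
        (Int.castRingHom (ZMod l) a) := by
    intro a h
    have : (⟨_, h⟩ : A) = (a : A) := by
      apply Subtype.ext
      change algebraMap ℚ L (Int.castRingHom ℚ a) = _
      rw [eq_intCast, map_intCast]; push_cast; rfl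
    rw [this, map_intCast, eq_intCast, map_intCast]
  exact ⟨hm _, hm _, hm _, hm _, hm _, he _ _, he _ _, he _ _, he _ _, he _ _⟩

lemma smul_mem_iff {σ : L ≃ₐ[ℚ] L} (hσ : σ ∈ A.decompositionSubgroup ℚ) (x : L) :
    σ x ∈ A ↔ x ∈ A := by
  have h : σ • A = A := hσ
  constructor
  · intro hx
    rw [← h] at hx
    exact (ValuationSubring.smul_mem_pointwise_smul_iff (g := σ) (S := A) (x := x)).mp hx
  · intro hx
    rw [← h]
    exact (ValuationSubring.smul_mem_pointwise_smul_iff (g := σ) (S := A) (x := x)).mpr hx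

lemma residue_frob {σ : L ≃ₐ[ℚ] L} (hσ : A.IsFrobeniusAt σ l) {x : L} (hx : x ∈ A)
    (hx' : σ x ∈ A) :
    IsLocalRing.residue A ⟨σ x, hx'⟩ = (IsLocalRing.residue A ⟨x, hx⟩) ^ l := by
  have e : (⟨σ x, hx'⟩ : A) = (⟨σ, hσ.mem_decompositionSubgroup⟩ : A.decompositionSubgroup ℚ) •
    (⟨x, hx⟩ : A) := rfl
  rw [e, IsLocalRing.ResidueField.residue_smul, hσ.smul_residue_eq]

end isRed

section equivariance

variable {L : Type*} [Field L] [Algebra ℚ L] {A : ValuationSubring L} {l : ℕ} [DecidableEq L]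

lemma redFun_frob [Fact l.Prime] (W : WeierstrassCurve ℤ)
    [Algebra (ZMod l) (IsLocalRing.ResidueField A)] [DecidableEq (IsLocalRing.ResidueField A)]
    (hΔ : ((W.reductionMod l)⁄(IsLocalRing.ResidueField A)).Δ ≠ 0)
    {σ : L ≃ₐ[ℚ] L} (hσ : A.IsFrobeniusAt σ l) (P : ((W.map (Int.castRingHom ℚ))⁄L).Point) :
    redFun (isRed_int W) hΔ (σ • P) = frobPt (W.reductionMod l).toAffine 
      (redFun (isRed_int (A := A) (l := l) W) hΔ P) := by
  match P with
  | 0 => rfl
  | .some x y h =>
    obtain ⟨h0, e⟩ : ∃ h0, σ • (Point.some x y h : ((W.map (Int.castRingHom ℚ))⁄L).Point) = 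
      Point.some (σ x) (σ y) h0 := ⟨_, rfl⟩
    rw [e]
    by_cases hx : x ∈ A
    · have hx' : σ x ∈ A := (smul_mem_iff hσ.mem_decompositionSubgroup x).mpr hx
      rw [redFun_some _ _ _ hx', redFun_some _ _ _ hx]
      obtain ⟨h', e'⟩ := frobPt_some (L := IsLocalRing.ResidueField A) (W.reductionMod l).toAffine 
        ((((W.reductionMod l)⁄(IsLocalRing.ResidueField A)).toAffine.equation_iff_nonsingular_of_Δ_ne_zero 
          hΔ).mp ((isRed_int W).equation' h.1 hx))
      rw [e']
      apply some_congr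
      · rw [ZMod.card, residue_frob hσ]
      · rw [ZMod.card, residue_frob hσ]
    · have hx' : σ x ∉ A := fun h => hx ((smul_mem_iff hσ.mem_decompositionSubgroup x).mp h)
      rw [redFun_some_not _ _ _ hx', redFun_some_not _ _ _ hx, map_zero]

/-- **Frobenius elements satisfy the characteristic equation** on torsion points (integral model) -/
theorem frob_char_model [Algebra.IsAlgebraic ℚ L] (W : WeierstrassCurve ℤ) (hl : l.Prime) 
    (hW : W.IsGoodPrimeFor l) (hA : A.LiesOverPrime l) {σ : L ≃ₐ[ℚ] L} (hσ : A.IsFrobeniusAt σ l) 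
    {n : ℕ} (hn : Odd n) (hnl : ¬ l ∣ n) (P : ((W.map (Int.castRingHom ℚ))⁄L).Point) 
    (hP : n • P = 0) :
    σ • σ • P - W.apOfModel l • (σ • P) + (l : ℤ) • P = 0 := by
  have : Fact l.Prime := ⟨hl⟩
  have := charP_residue hl hA
  let : Algebra (ZMod l) (IsLocalRing.ResidueField A) := ZMod.algebra _ l
  have := algebraic_residue hl hA
  classical
  have hΔ0 : (W.reductionMod l).Δ ≠ 0 := by
    rw [reductionMod, WeierstrassCurve.map_Δ, eq_intCast]
    intro h
    rw [ZMod.intCast_zmod_eq_zero_iff_dvd] at h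
    exact hW h
  have hΔ : ((W.reductionMod l)⁄(IsLocalRing.ResidueField A)).Δ ≠ 0 := by
    have : ((W.reductionMod l)⁄(IsLocalRing.ResidueField A)).Δ = 
      algebraMap _ (IsLocalRing.ResidueField A) (W.reductionMod l).Δ := WeierstrassCurve.map_Δ _ _
    rw [this]
    exact (map_ne_zero _).mpr hΔ0
  let r := redHom valuation_lt_one_iff_residue (isRed_int (A := A) (l := l) W) hΔ
  have hr : ∀ P, r (σ • P) = frobPt (W.reductionMod l).toAffine (r P) := redFun_frob W hΔ hσ
  have hsm : ∀ (m : ℕ) (P : ((W.map (Int.castRingHom ℚ))⁄L).Point), m • (σ • P) = σ • (m • P) := by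
    intro m P
    exact (map_nsmul (Point.map σ.toAlgHom) m P).symm
  apply eq_zero_of_redHom valuation_lt_one_iff_residue (isRed_int (A := A) (l := l) W) hΔ 
    (val_nat_eq_one hl hA hnl)
  · have h0 : σ • (0 : ((W.map (Int.castRingHom ℚ))⁄L).Point) = 0 := rfl
    have h1 : n • (σ • σ • P) = 0 := by rw [hsm, hsm, hP, h0, h0]
    have h2 : ∀ a : ℤ, n • (a • (σ • P)) = 0 := by
      intro a
      rw [← natCast_zsmul, smul_comm (n : ℤ) a, natCast_zsmul, hsm, hP, h0, smul_zero]
    have h3 : n • ((l : ℤ) • P) = 0 := by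
      rw [← natCast_zsmul, smul_comm (n : ℤ) (l : ℤ), natCast_zsmul P n, hP, smul_zero]
    rw [nsmul_add, nsmul_sub, h1, h2, h3, sub_zero, add_zero]
  · change r _ = 0
    rw [map_add, map_sub, map_zsmul, map_zsmul, hr, hr]
    have hm : Odd (n : ℤ) := by exact_mod_cast hn
    have := char_eq l (W.reductionMod l).toAffine hΔ0 hm (r P) (by
      rw [← map_zsmul, natCast_zsmul, hP, map_zero])
    rw [apOfModel, traceOfFrobenius, card, Nat.card_zmod]
    exact this

omit [Algebra ℚ L] in
lemma smul_psi {F : Type*} [Field F] [Algebra F L] (E : WeierstrassCurve F) (C : VariableChange F)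
    (σ : L ≃ₐ[F] L) (P : ((C • E : WeierstrassCurve F)⁄L).Point) :
    σ • (psi (M := L) E C P) = psi E C (σ • P) := by
  match P with
  | 0 => 
    have h0 : σ • (0 : ((C • E : WeierstrassCurve F)⁄L).Point) = 0 := rfl
    have h1 : σ • (0 : (E⁄L).Point) = 0 := rfl
    rw [h0, map_zero, h1]
  | .some x y h =>
    obtain ⟨h0, e⟩ : ∃ h0, σ • (Point.some x y h : ((C • E : WeierstrassCurve F)⁄L).Point) = 
      Point.some (σ x) (σ y) h0 := ⟨_, rfl⟩
    obtain ⟨h2, e2⟩ := psi_some E C h
    obtain ⟨h3, e3⟩ := psi_some E C h0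
    rw [e, e2, e3]
    obtain ⟨h4, e4⟩ : ∃ h4, σ • (Point.some _ _ h2 : (E⁄L).Point) = 
      Point.some (σ (vcX (C.map (algebraMap F L)) x)) (σ (vcY (C.map (algebraMap F L)) x y)) h4 := 
      ⟨_, rfl⟩
    rw [e4]
    apply some_congr
    · simp only [vcX]
      rw [map_add, map_mul, map_pow]
      simp only [VariableChange.map, Units.coe_map, MonoidHom.coe_coe]
      rw [AlgEquiv.commutes, AlgEquiv.commutes]
    · simp only [vcY]
      rw [map_add, map_add, map_mul, map_mul, map_mul, map_pow, map_pow]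
      simp only [VariableChange.map, Units.coe_map, MonoidHom.coe_coe]
      rw [AlgEquiv.commutes, AlgEquiv.commutes, AlgEquiv.commutes]

/-- **Frobenius elements satisfy the characteristic equation** on torsion points. -/
theorem frob_char [Algebra.IsAlgebraic ℚ L] (E : WeierstrassCurve ℚ) {W : WeierstrassCurve ℤ} 
    (hWE : W.IsIntegralModelOf E) (hl : l.Prime) 
    (hW : W.IsGoodPrimeFor l) (hA : A.LiesOverPrime l) {σ : L ≃ₐ[ℚ] L} (hσ : A.IsFrobeniusAt σ l) 
    {n : ℕ} (hn : Odd n) (hnl : ¬ l ∣ n) (P : (E⁄L).Point) (hP : n • P = 0) :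
    σ • σ • P - W.apOfModel l • (σ • P) + (l : ℤ) • P = 0 := by
  obtain ⟨C, hC⟩ := hWE
  have key := frob_char_model (L := L) W hl hW hA hσ hn hnl
  rw [← hC] at key
  obtain ⟨Q, rfl⟩ := (psi (M := L) E C).surjective P
  have hQ : n • Q = 0 := by
    apply (psi (M := L) E C).injective
    rw [map_nsmul, hP, map_zero]
  have e := congrArg (psi (M := L) E C) (key Q hQ)
  rw [map_add, map_sub, map_zsmul, map_zsmul, map_zero, ← smul_psi, ← smul_psi] at e
  exact e

end equivariance

end Fermat.Agent.FrobE
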