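import Mathlib
import Fermat.Agent.FrobE.Final

set_option autoImplicit false

/-!
# Frobenius elements satisfy the characteristic equation, form used by the frozen statements
-/

namespace Fermat.Agent.FrobE

open WeierstrassCurve WeierstrassCurve.Affine WeierstrassCurve.Affine.Point

/-- characteristic equation on the torsion submodule -/
theorem frob_char_torsion (E : WeierstrassCurve ℚ) {W : WeierstrassCurve ℤ} 
    (hWE : W.IsIntegralModelOf E) {l : ℕ} (hl : l.Prime) (hW : W.IsGoodPrimeFor l) 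
    {A : ValuationSubring (AlgebraicClosure ℚ)} (hA : A.LiesOverPrime l)
    {σ : AlgebraicClosure ℚ ≃ₐ[ℚ] AlgebraicClosure ℚ} (hσ : A.IsFrobeniusAt σ l) 
    {n : ℕ} (hn : Odd n) (hnl : ¬ l ∣ n) 
    (x : Submodule.torsionBy ℤ (E⁄(AlgebraicClosure ℚ)).Point n) :
    σ • σ • x - W.apOfModel l • (σ • x) + (l : ℤ) • x = 0 := by
  apply Subtype.ext
  have := frob_char E hWE hl hW hA hσ hn hnl x.1 (by
    have := (Submodule.mem_torsionBy_iff _ _).mp x.2
    rwa [natCast_zsmul] at this)
  exact this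

/-- characteristic equation for the module endomorphism -/
theorem frob_char_end (E : WeierstrassCurve ℚ) {W : WeierstrassCurve ℤ} 
    (hWE : W.IsIntegralModelOf E) {l : ℕ} (hl : l.Prime) (hW : W.IsGoodPrimeFor l) 
    {A : ValuationSubring (AlgebraicClosure ℚ)} (hA : A.LiesOverPrime l)
    {σ : AlgebraicClosure ℚ ≃ₐ[ℚ] AlgebraicClosure ℚ} (hσ : A.IsFrobeniusAt σ l) 
    {n : ℕ} (hn : Odd n) (hnl : ¬ l ∣ n) :
    galoisRepModuleEnd (K := AlgebraicClosure ℚ) ℚ E n σ ^ 2 - 
      (W.apOfModel l : ZMod n) • galoisRepModuleEnd (K := AlgebraicClosure ℚ) ℚ E n σ + 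
      (l : ZMod n) • 1 = 0 := by
  apply LinearMap.ext
  intro x
  have h := frob_char_torsion E hWE hl hW hA hσ hn hnl x
  rw [LinearMap.add_apply, LinearMap.sub_apply, LinearMap.smul_apply, LinearMap.smul_apply, 
    pow_two, Module.End.mul_apply, galoisRepModuleEnd_apply, galoisRepModuleEnd_apply, 
    Module.End.one_apply, LinearMap.zero_apply, ← h, Int.cast_smul_eq_zsmul]
  congr 1
  rw [Nat.cast_smul_eq_nsmul, natCast_zsmul]

end Fermat.Agent.FrobE
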